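import Fermat.Agent.FlatModels.Basic
import Mathlib.Algebra.Module.Projective
import Mathlib.LinearAlgebra.Quotient.Basic

/-!
# Closure of finite flat models under subobjects, quotients and finite products
-/

set_option autoImplicit false

noncomputable section

namespace Fermat.Agent.FlatModels

open scoped TensorProduct

variable {p : ℕ}

section Elementary

variable {M M' : Type*} [AddCommGroup M] [AddCommGroup M']

/-- A stable subgroup of a module with a flat model has one. -/
theorem HasFlatModel.of_injective {act : Gal → M → M} {act' : Gal → M' → M'}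
    (h : HasFlatModel p act) (i : M' →+ M) (hi : Function.Injective i)
    (hcomm : ∀ σ x, i (act' σ x) = act σ (i x)) : HasFlatModel p act' := by
  obtain ⟨hfin, O, hO⟩ := h
  have := Finite.of_injective i hi
  refine ⟨this, ?_⟩
  let res : O →ₐ[Rp p] (M' → Qbar) :=
    (AlgHom.pi fun x : M' => Pi.evalAlgHom (Rp p) (fun _ => Qbar) (i x)).comp O.val
  have := hO.finite
  refine ⟨res.range, Module.Finite.of_surjective res.rangeRestrict.toLinearMap
    res.rangeRestrict_surjective, ?_, ?_, ?_⟩
  · rintro _ ⟨a, rfl⟩ σ x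
    show (a : M → Qbar) (i (act' σ x)) = σ ((a : M → Qbar) (i x))
    rw [hcomm]
    exact hO.equivariant _ a.2 σ _
  · intro x y hxy
    exact hi (hO.separates _ _ fun a ha => hxy _ ⟨⟨a, ha⟩, rfl⟩)
  · rintro _ ⟨a, rfl⟩
    have hsum : (fun z : M' × M' => res a (z.1 + z.2)) =
        (a : M → Qbar) ∘ ((fun z : M' × M' => i z.1) + fun z => i z.2) := by
      funext z
      show (a : M → Qbar) (i (z.1 + z.2)) = _
      rw [map_add]
      rfl
    show (fun z : M' × M' => res a (z.1 + z.2)) ∈ _
    rw [hsum]
    refine hO.comp_add_mem _ (fun b hb => ?_) (fun b hb => ?_) a.2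
    · exact ⟨⟨res ⟨b, hb⟩, ⟨b, hb⟩, rfl⟩ ⊗ₜ 1, funext fun z => by simp [res]⟩
    · exact ⟨1 ⊗ₜ ⟨res ⟨b, hb⟩, ⟨b, hb⟩, rfl⟩, funext fun z => by simp [res]⟩

/-- Transport along an equivariant isomorphism. -/
theorem HasFlatModel.of_addEquiv {act : Gal → M → M} {act' : Gal → M' → M'}
    (h : HasFlatModel p act) (i : M' ≃+ M) (hcomm : ∀ σ x, i (act' σ x) = act σ (i x)) :
    HasFlatModel p act' :=
  h.of_injective i.toAddMonoidHom i.injective hcomm

/-- The trivial module. -/
theorem hasFlatModel_of_subsingleton [Subsingleton M] (act : Gal → M → M) :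
    HasFlatModel p act := by
  refine ⟨inferInstance, ⊥, ?_, ?_, ?_, ?_⟩
  · exact Module.Finite.of_surjective
      ((Algebra.ofId (Rp p) (M → Qbar)).codRestrict ⊥ fun r => Subalgebra.algebraMap_mem _ r).toLinearMap
      fun a => by
        obtain ⟨r, hr⟩ := Algebra.mem_bot.mp a.2
        exact ⟨r, Subtype.ext hr⟩
  · rintro h hh σ x
    obtain ⟨r, rfl⟩ := Algebra.mem_bot.mp hh
    show algebraMap (Rp p) Qbar r = σ (algebraMap (Rp p) Qbar r)
    rw [IsScalarTower.algebraMap_apply (Rp p) ℚ Qbar, AlgEquiv.commutes]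
  · exact fun x y _ => Subsingleton.elim x y
  · rintro h hh
    obtain ⟨r, rfl⟩ := Algebra.mem_bot.mp hh
    refine ⟨algebraMap (Rp p) _ r, funext fun z => ?_⟩
    show mulMap _ _ (algebraMap (Rp p) _ r) z = _
    rw [AlgHom.commutes]
    rfl

/-- Products. -/
theorem HasFlatModel.prod {act : Gal → M → M} {act' : Gal → M' → M'}
    (h : HasFlatModel p act) (h' : HasFlatModel p act') :
    HasFlatModel p (fun σ => Prod.map (act σ) (act' σ)) := by
  obtain ⟨hfin, O, hO⟩ := h
  obtain ⟨hfin', O', hO'⟩ := h'
  refine ⟨inferInstance, ?_⟩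
  have := hO.finite
  have := hO'.finite
  set Φ : O ⊗[Rp p] O' →ₐ[Rp p] (M × M' → Qbar) := mulMap O.val O'.val with hΦ
  refine ⟨Φ.range, Module.Finite.of_surjective Φ.rangeRestrict.toLinearMap
    Φ.rangeRestrict_surjective, ?_, ?_, ?_⟩
  · rintro _ ⟨t, rfl⟩
    exact isEquivariant_mulMap (fun a => hO.equivariant _ a.2) (fun a => hO'.equivariant _ a.2) t
  · intro x y hxy
    refine Prod.ext (hO.separates _ _ fun a ha => ?_) (hO'.separates _ _ fun a ha => ?_)
    · simpa [hΦ] using hxy _ ⟨⟨a, ha⟩ ⊗ₜ 1, rfl⟩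
    · simpa [hΦ] using hxy _ ⟨1 ⊗ₜ ⟨a, ha⟩, rfl⟩
  · rintro _ ⟨t, rfl⟩
    show (fun z : (M × M') × (M × M') => Φ t (z.1 + z.2)) ∈ _
    induction t using TensorProduct.induction_on with
    | zero =>
      simp only [map_zero, Pi.zero_apply]
      exact zero_mem _
    | tmul a b =>
      have : (fun z : (M × M') × (M × M') => Φ (a ⊗ₜ b) (z.1 + z.2)) =
          (a : M → Qbar) ∘ ((fun z : (M × M') × (M × M') => z.1.1) + fun z => z.2.1) *
            (b : M' → Qbar) ∘ ((fun z : (M × M') × (M × M') => z.1.2) + fun z => z.2.2) := by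
        funext z
        simp [hΦ]
      rw [this]
      refine mul_mem (hO.comp_add_mem _ (fun c hc => ?_) (fun c hc => ?_) a.2)
        (hO'.comp_add_mem _ (fun c hc => ?_) (fun c hc => ?_) b.2)
      · exact ⟨⟨Φ (⟨c, hc⟩ ⊗ₜ 1), _, rfl⟩ ⊗ₜ 1, funext fun z => by simp [hΦ]⟩
      · exact ⟨1 ⊗ₜ ⟨Φ (⟨c, hc⟩ ⊗ₜ 1), _, rfl⟩, funext fun z => by simp [hΦ]⟩
      · exact ⟨⟨Φ (1 ⊗ₜ ⟨c, hc⟩), _, rfl⟩ ⊗ₜ 1, funext fun z => by simp [hΦ]⟩
      · exact ⟨1 ⊗ₜ ⟨Φ (1 ⊗ₜ ⟨c, hc⟩), _, rfl⟩, funext fun z => by simp [hΦ]⟩
    | add u v hu hv =>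
      simp only [map_add, Pi.add_apply]
      exact add_mem hu hv

/-- Powers. -/
theorem HasFlatModel.pi {ι : Type*} [Finite ι] {N : ι → Type*} [∀ i, AddCommGroup (N i)]
    {act : ∀ i, Gal → N i → N i} (h : ∀ i, HasFlatModel p (act i)) :
    HasFlatModel p (fun σ (v : ∀ i, N i) i => act i σ (v i)) := by
  classical
  have : ∀ s : Finset ι, HasFlatModel p (fun σ (v : ∀ i : s, N i) i => act i σ (v i)) := by
    intro s
    induction s using Finset.induction_on with
    | empty =>
      have : Subsingleton (∀ i : (∅ : Finset ι), N i) :=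
        ⟨fun v w => funext fun i => absurd i.2 (Finset.notMem_empty _)⟩
      exact hasFlatModel_of_subsingleton _
    | insert a s ha ih =>
      refine ((h a).prod ih).of_injective
        (AddMonoidHom.prod (Pi.evalAddMonoidHom (fun i : (insert a s : Finset ι) => N i)
            ⟨a, Finset.mem_insert_self a s⟩)
          (AddMonoidHom.pi fun i : s => Pi.evalAddMonoidHom (fun i : (insert a s : Finset ι) => N i)
            ⟨i, Finset.mem_insert_of_mem i.2⟩)) ?_ (fun σ v => rfl)
      intro v w hvw
      funext ⟨i, hi⟩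
      rcases Finset.mem_insert.mp hi with rfl | hi'
      · exact congrArg Prod.fst hvw
      · exact congrFun (congrArg Prod.snd hvw) ⟨i, hi'⟩
  let hι := Fintype.ofFinite ι
  refine (this Finset.univ).of_injective
    (AddMonoidHom.pi fun i : (Finset.univ : Finset ι) => Pi.evalAddMonoidHom N i) ?_
    (fun σ v => rfl)
  intro v w hvw
  funext i
  exact congrFun hvw ⟨i, Finset.mem_univ i⟩

end Elementary

section Quotient

variable {M M'' : Type*} [AddCommGroup M] [AddCommGroup M'']

/-- The sum of a function of a Hopf order over the kernel of an equivariant map lies in `ℤ₍ₚ₎`. -/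
theorem IsHopfOrder.sum_ker_mem_range [Fintype M] {act : Gal → M → M}
    {act'' : Gal → M'' → M''} {O : Subalgebra (Rp p) (M → Qbar)} (hO : IsHopfOrder act O)
    (q : M →+ M'') (hcomm : ∀ σ x, q (act σ x) = act'' σ (q x)) {K : Finset M}
    (hK : ∀ k, k ∈ K ↔ q k = 0) {b : M → Qbar} (hb : b ∈ O) :
    (∑ k ∈ K, b k) ∈ Set.range (algebraMap (Rp p) Qbar) := by
  refine mem_range_of_fixed_of_isIntegral (fun σ => ?_)
    (IsIntegral.sum _ fun k _ => hO.isIntegral_apply hb k)
  rw [map_sum]
  refine (Finset.sum_congr rfl fun k _ => (hO.equivariant b hb σ k).symm).trans ?_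
  refine Finset.sum_bij (fun k _ => act σ k) ?_ (fun a _ b _ hab => hO.act_injective σ hab)
    (fun m hm => ?_) (fun k _ => rfl)
  · intro k hk
    rw [hK] at hk ⊢
    rw [hcomm, hk, ← map_zero q, ← hcomm, hO.act_zero, map_zero]
  · obtain ⟨k, rfl⟩ := hO.act_surjective σ m
    refine ⟨k, ?_, rfl⟩
    rw [hK] at hm ⊢
    obtain ⟨n, hn, hn0⟩ : ∃ n, 0 < n ∧ (act σ)^[n] k = k :=
      ⟨Function.minimalPeriod (act σ) k,
        Function.minimalPeriod_pos_of_mem_periodicPts
          ((hO.act_injective σ).mem_periodicPts k),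
        Function.iterate_minimalPeriod⟩
    obtain ⟨n, rfl⟩ : ∃ m, n = m + 1 := ⟨n - 1, by omega⟩
    have hz : ∀ m : ℕ, q ((act σ)^[m + 1] k) = 0 := by
      intro m
      induction m with
      | zero => simpa using hm
      | succ m ih =>
        rw [Function.iterate_succ_apply', hcomm, ih, ← map_zero q, ← hcomm, hO.act_zero,
          map_zero]
    rw [← hn0]
    exact hz n

/-- Summing a function of a Hopf order along the fibres of an equivariant map gives, composed
with the map, again a function of the order. -/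
theorem IsHopfOrder.sum_fibre_mem [Fintype M] {act : Gal → M → M}
    {act'' : Gal → M'' → M''} {O : Subalgebra (Rp p) (M → Qbar)} (hO : IsHopfOrder act O)
    (q : M →+ M'') (hcomm : ∀ σ x, q (act σ x) = act'' σ (q x)) {K : Finset M}
    (hK : ∀ k, k ∈ K ↔ q k = 0) {f : M → Qbar} (hf : f ∈ O) :
    (fun x => ∑ k ∈ K, f (x + k)) ∈ O := by
  obtain ⟨t, ht⟩ := hO.comul f hf
  have heq : (fun x => ∑ k ∈ K, f (x + k)) = fun x => ∑ k ∈ K, mulMap O.val O.val t (x, k) := by
    funext x
    exact Finset.sum_congr rfl fun k _ => (congrFun ht (x, k)).symm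
  rw [heq]
  clear ht heq
  induction t using TensorProduct.induction_on with
  | zero => simpa [Pi.zero_def] using O.zero_mem
  | tmul a b =>
    obtain ⟨r, hr⟩ := hO.sum_ker_mem_range q hcomm hK b.2
    have : (fun x => ∑ k ∈ K, mulMap O.val O.val (a ⊗ₜ b) (x, k)) =
        r • (a : M → Qbar) := by
      funext x
      simp [← Finset.mul_sum, Algebra.smul_def, hr, mul_comm]
    rw [this]
    exact O.smul_mem a.2 r
  | add u v hu hv =>
    simpa [Finset.sum_add_distrib, Pi.add_def] using O.add_mem hu hv

/-- An injection with torsion free cokernel between finite modules over `ℤ₍ₚ₎` has a retraction. -/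
theorem exists_retraction_of_torsionFree_coker {N O : Type*} [AddCommGroup N] [Module (Rp p) N]
    [AddCommGroup O] [Module (Rp p) O] [Module.Finite (Rp p) O] (j : N →ₗ[Rp p] O)
    (hj : Function.Injective j) [Module.IsTorsionFree (Rp p) (O ⧸ LinearMap.range j)] :
    ∃ r : O →ₗ[Rp p] N, ∀ b, r (j b) = b := by
  set C := LinearMap.range j
  have : Module.Free (Rp p) (O ⧸ C) := Module.free_of_finite_type_torsion_free'
  obtain ⟨s, hs⟩ := Module.projective_lifting_property C.mkQ LinearMap.id C.mkQ_surjective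
  let ej := LinearEquiv.ofInjective j hj
  let r : O →ₗ[Rp p] N := ej.symm.toLinearMap.comp
    ((LinearMap.id - s.comp C.mkQ).codRestrict C fun a => by
      rw [← Submodule.Quotient.mk_eq_zero, ← Submodule.mkQ_apply]
      simp only [LinearMap.sub_apply, LinearMap.id_apply, LinearMap.comp_apply, map_sub]
      rw [← LinearMap.comp_apply C.mkQ s, hs, LinearMap.id_apply, sub_self])
  refine ⟨r, fun b => ?_⟩
  apply ej.injective
  show ej (ej.symm _) = _
  rw [LinearEquiv.apply_symm_apply]
  apply Subtype.ext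
  show j b - s (C.mkQ (j b)) = j b
  rw [show C.mkQ (j b) = 0 from (Submodule.Quotient.mk_eq_zero _).mpr ⟨b, rfl⟩, map_zero, sub_zero]

/-- The fibre sums of a Hopf order separate the fibres of a surjection. -/
theorem IsHopfOrder.eq_of_sum_fibre_eq [Fintype M] {act : Gal → M → M}
    {O : Subalgebra (Rp p) (M → Qbar)} (hO : IsHopfOrder act O) (q : M →+ M'') {K : Finset M}
    (hK : ∀ k, k ∈ K ↔ q k = 0) {x y : M}
    (hxy : ∀ f ∈ O, ∑ k ∈ K, f (x + k) = ∑ k ∈ K, f (y + k)) : q x = q y := by
  classical
  by_contra hne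
  let D : (M → Qbar) →ₗ[Qbar] Qbar :=
    ∑ k ∈ K, ((LinearMap.proj (R := Qbar) (φ := fun _ : M => Qbar) (x + k)) -
      LinearMap.proj (R := Qbar) (φ := fun _ : M => Qbar) (y + k))
  have hD : ∀ f : M → Qbar, D f = ∑ k ∈ K, f (x + k) - ∑ k ∈ K, f (y + k) := fun f => by
    simp [D, Finset.sum_sub_distrib]
  have hD0 : D = 0 := LinearMap.ext_on hO.span_eq_top fun f hf => by
    rw [hD, hxy f hf, sub_self, LinearMap.zero_apply]
  have h1 := LinearMap.congr_fun hD0 (Pi.single x 1)
  rw [hD, LinearMap.zero_apply, Finset.sum_eq_single 0, add_zero, Pi.single_eq_same,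
    Finset.sum_eq_zero, sub_zero] at h1
  · exact one_ne_zero h1
  · intro k hk
    refine Pi.single_eq_of_ne (fun he => hne ?_) _
    rw [← he, map_add, (hK k).mp hk, add_zero]
  · intro k _ hk0
    exact Pi.single_eq_of_ne (fun he => hk0 (by simpa using he)) _
  · intro h0
    exact absurd ((hK 0).mpr (map_zero q)) h0

/-- A quotient of a module with a flat model has one. -/
theorem HasFlatModel.of_surjective {act : Gal → M → M} {act'' : Gal → M'' → M''}
    (h : HasFlatModel p act) (q : M →+ M'') (hq : Function.Surjective q)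
    (hcomm : ∀ σ x, q (act σ x) = act'' σ (q x)) : HasFlatModel p act'' := by
  classical
  obtain ⟨hfin, O, hO⟩ := h
  refine ⟨Finite.of_surjective q hq, ?_⟩
  have := hO.finite
  have := hO.free
  let : Fintype M := Fintype.ofFinite M
  let pq : (M'' → Qbar) →ₐ[Rp p] (M → Qbar) :=
    AlgHom.pi fun x => Pi.evalAlgHom (Rp p) (fun _ => Qbar) (q x)
  have hpq : Function.Injective pq := fun a b hab => by
    funext m
    obtain ⟨x, rfl⟩ := hq m
    exact congrFun hab x
  let O'' : Subalgebra (Rp p) (M'' → Qbar) := O.comap pq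
  let j : O'' →ₐ[Rp p] O := (pq.comp O''.val).codRestrict O fun a => a.2
  have hj : Function.Injective j := fun a b hab =>
    Subtype.ext (hpq (congrArg Subtype.val hab))
  have hfin'' : Module.Finite (Rp p) O'' := Module.Finite.of_injective j.toLinearMap hj
  -- the sum along the fibres
  let K : Finset M := Finset.univ.filter fun k => q k = 0
  have hK : ∀ k, k ∈ K ↔ q k = 0 := fun k => by simp [K]
  let sec : M'' → M := Function.surjInv hq
  have hsec : ∀ m, q (sec m) = m := Function.surjInv_eq hq
  let P : (M → Qbar) →ₗ[Rp p] (M'' → Qbar) :=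
    { toFun := fun f m => ∑ k ∈ K, f (sec m + k)
      map_add' := fun f g => by funext m; simp [Finset.sum_add_distrib]
      map_smul' := fun c f => by funext m; simp [Finset.smul_sum] }
  have hP : ∀ (f : M → Qbar) (x : M), P f (q x) = ∑ k ∈ K, f (x + k) := by
    intro f x
    refine Finset.sum_bij' (fun k _ => sec (q x) - x + k) (fun k _ => x - sec (q x) + k)
      ?_ ?_ ?_ ?_ ?_
    · intro k hk
      rw [hK] at hk ⊢
      rw [map_add, map_sub, hsec, hk, sub_self, zero_add]
    · intro k hk
      rw [hK] at hk ⊢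
      rw [map_add, map_sub, hsec, hk, sub_self, zero_add]
    · intro k _; abel
    · intro k _; abel
    · intro k _; congr 1; abel
  have hPO : ∀ f ∈ O, P f ∈ O'' := fun f hf => by
    show pq (P f) ∈ O
    rw [show pq (P f) = fun x => ∑ k ∈ K, f (x + k) from funext fun x => hP f x]
    exact hO.sum_fibre_mem q hcomm hK hf
  let P' : O →ₗ[Rp p] O'' := (P.comp O.val.toLinearMap).codRestrict
    (Subalgebra.toSubmodule O'') fun a => hPO _ a.2
  -- `O''` is a direct summand of `O`
  let C : Submodule (Rp p) O := LinearMap.range j.toLinearMap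
  have htf : Module.IsTorsionFree (Rp p) (O ⧸ C) := by
    refine Module.IsTorsionFree.of_smul_eq_zero fun r x hrx => ?_
    by_cases hr : r = 0
    · exact Or.inl hr
    refine Or.inr ?_
    obtain ⟨a, rfl⟩ := Submodule.Quotient.mk_surjective C x
    rw [← Submodule.Quotient.mk_smul, Submodule.Quotient.mk_eq_zero] at hrx
    obtain ⟨b, hb⟩ := hrx
    rw [Submodule.Quotient.mk_eq_zero]
    have hinv : pq ((a : M → Qbar) ∘ sec) = (a : M → Qbar) := by
      funext x
      have h1 := congrFun (congrArg Subtype.val hb) x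
      have h2 := congrFun (congrArg Subtype.val hb) (sec (q x))
      have h12 : r • (a : M → Qbar) (sec (q x)) = r • (a : M → Qbar) x := by
        refine (h2.symm.trans ?_).trans h1
        show (b : M'' → Qbar) (q (sec (q x))) = (b : M'' → Qbar) (q x)
        rw [hsec]
      rw [Algebra.smul_def, Algebra.smul_def] at h12
      exact mul_left_cancel₀ (fun h0 => hr (algebraMap_qbar_injective (h0.trans (map_zero _).symm))) h12
    exact ⟨⟨(a : M → Qbar) ∘ sec, show pq _ ∈ O from hinv.symm ▸ a.2⟩, Subtype.ext hinv⟩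
  obtain ⟨r, hr⟩ := exists_retraction_of_torsionFree_coker j.toLinearMap hj
  refine ⟨O'', hfin'', ?_, ?_, ?_⟩
  · intro f hf σ m
    obtain ⟨x, rfl⟩ := hq m
    rw [← hcomm]
    exact hO.equivariant _ hf σ x
  · intro m m' hmm
    obtain ⟨x, rfl⟩ := hq m
    obtain ⟨y, rfl⟩ := hq m'
    exact hO.eq_of_sum_fibre_eq q hK fun f hf => by rw [← hP, ← hP]; exact hmm _ (hPO f hf)
  · intro f hf
    let a : O := j ⟨f, hf⟩
    obtain ⟨t, ht⟩ := hO.comul _ a.2
    replace ht : mulMap O.val O.val t = _ := ht
    let t'' := TensorProduct.map P' P' t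
    let t₀ := TensorProduct.map r r t
    set c : ℕ := K.card with hc
    have hc0 : c ≠ 0 := Finset.card_ne_zero.mpr ⟨0, (hK 0).mpr (map_zero q)⟩
    have hval : ∀ x y, mulMap O''.val O''.val t'' (q x, q y) = (c * c : ℕ) • f (q x + q y) := by
      intro x y
      have hgen : ∀ u : O ⊗[Rp p] O, mulMap O''.val O''.val (TensorProduct.map P' P' u) (q x, q y)
          = ∑ k ∈ K, ∑ l ∈ K, mulMap O.val O.val u (x + k, y + l) := by
        intro u
        induction u using TensorProduct.induction_on with
        | zero => simp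
        | tmul u v =>
          simp only [TensorProduct.map_tmul, mulMap_tmul]
          rw [show (O''.val (P' u) : M'' → Qbar) = P (u : M → Qbar) from rfl,
            show (O''.val (P' v) : M'' → Qbar) = P (v : M → Qbar) from rfl, hP, hP,
            Finset.sum_mul_sum]
          rfl
        | add u v hu hv => simp only [map_add, Pi.add_apply, hu, hv, Finset.sum_add_distrib]
      rw [hgen]
      refine (Finset.sum_congr rfl fun k hk => Finset.sum_congr rfl fun l hl =>
        (congrFun ht (x + k, y + l)).trans (?_ : _ = f (q x + q y))).trans ?_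
      · show f (q (x + k + (y + l))) = _
        rw [map_add, map_add, map_add, (hK k).mp hk, (hK l).mp hl, add_zero, add_zero]
      · rw [Finset.sum_const, Finset.sum_const, smul_smul]
    have hjj : TensorProduct.map j.toLinearMap j.toLinearMap t'' = (c * c) • t := by
      refine mulMap_injective (fA := O.val) (fB := O.val) hO.act_surjective hO.act_surjective
        (fun a => hO.equivariant _ a.2) (fun a => hO.equivariant _ a.2) Subtype.val_injective
        Subtype.val_injective (funext fun z => ?_)
      have hgen : ∀ u : O'' ⊗[Rp p] O'', mulMap O.val O.val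
          (TensorProduct.map j.toLinearMap j.toLinearMap u) z
          = mulMap O''.val O''.val u (q z.1, q z.2) := by
        intro u
        induction u using TensorProduct.induction_on with
        | zero => simp
        | tmul u v => rfl
        | add u v hu hv => simp only [map_add, Pi.add_apply, hu, hv]
      rw [hgen, hval, map_nsmul, Pi.smul_apply, congrFun ht z, ← map_add]
      rfl
    have ht'' : t'' = (c * c) • t₀ := by
      have := congrArg (TensorProduct.map r r) hjj
      rw [map_nsmul, ← LinearMap.comp_apply, ← TensorProduct.map_comp,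
        show r.comp j.toLinearMap = LinearMap.id from LinearMap.ext hr, TensorProduct.map_id,
        LinearMap.id_apply] at this
      exact this
    refine ⟨t₀, funext fun z => ?_⟩
    obtain ⟨x, hx⟩ := hq z.1
    obtain ⟨y, hy⟩ := hq z.2
    have := hval x y
    rw [ht'', map_nsmul, Pi.smul_apply, hx, hy] at this
    exact smul_right_injective Qbar (mul_ne_zero hc0 hc0) this

end Quotient

end Fermat.Agent.FlatModels
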