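import Fermat.Agent.FlatModels.Hopf
import Fermat.Agent.FlatModels.Closure

/-!
# Flat models and `GaloisRepAdic.IsFlatAt`

A representation over a local ring with finite residue field is flat at `p` if and only if all its
finite levels `V / I V` have finite flat models over `ℤ₍ₚ₎`.
-/

set_option autoImplicit false

noncomputable section

namespace Fermat.Agent.FlatModels

open scoped TensorProduct

variable {p : ℕ} {A : Type} [CommRing A] [IsLocalRing A] {ρ : GaloisRepAdic A}

/-- The levels of a flat representation have flat models. -/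
theorem hasFlatModel_level_of_isFlatAt (h : ρ.IsFlatAt p) (I : Ideal A) (hI : Finite (A ⧸ I)) :
    HasFlatModel p (fun σ => ρ.levelAction I σ) := by
  obtain ⟨H, _, _, hfin, -, -, e, hadd, hact⟩ := h.2 I hI
  have := hfin
  have : Finite (ρ.V ⧸ (I • (⊤ : Submodule A ρ.V))) := by
    have : Module.Finite (A ⧸ I) (ρ.V ⧸ (I • (⊤ : Submodule A ρ.V))) :=
      Module.Finite.of_restrictScalars_finite A _ _
    exact Module.finite_of_finite (A ⧸ I)
  exact of_hopfAlgebra e hadd hact

/-- Flatness from flat models of all finite levels. -/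
theorem isFlatAt_of_hasFlatModel (hres : Finite (IsLocalRing.ResidueField A))
    (h : ∀ I : Ideal A, Finite (A ⧸ I) → HasFlatModel p (fun σ => ρ.levelAction I σ)) :
    ρ.IsFlatAt p :=
  ⟨hres, fun I hI => (h I hI).exists_hopfAlgebra⟩

/-- An ideal of finite index of a local ring with `p` in the maximal ideal contains a power of
`p`. -/
theorem exists_pow_mem_of_finite_quotient (hpA : (p : A) ∈ IsLocalRing.maximalIdeal A)
    (I : Ideal A) (hI : Finite (A ⧸ I)) : ∃ n : ℕ, (p : A) ^ n ∈ I := by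
  obtain ⟨i, j, hij, heq⟩ := Finite.exists_ne_map_eq_of_infinite
    (fun n : ℕ => Ideal.Quotient.mk I ((p : A) ^ n))
  wlog hlt : i < j generalizing i j
  · exact this j i hij.symm heq.symm (lt_of_le_of_ne (not_lt.mp hlt) hij.symm)
  refine ⟨i, ?_⟩
  obtain ⟨k, rfl⟩ : ∃ k, j = i + (k + 1) := ⟨j - i - 1, by omega⟩
  have hu : IsUnit (1 - (p : A) ^ (k + 1)) :=
    IsLocalRing.isUnit_one_sub_self_of_mem_nonunits _
      (Ideal.pow_mem_of_mem _ hpA _ (Nat.succ_pos k))
  rw [Ideal.Quotient.mk_eq_mk_iff_sub_mem] at heq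
  refine (Ideal.mul_unit_mem_iff_mem I hu).mp ?_
  convert heq using 1
  ring

/-- A representation is flat at `p` as soon as, for each `n`, it maps equivariantly to a module
with a flat model, with kernel contained in `p ^ n • V`. -/
theorem isFlatAt_of_maps (hres : Finite (IsLocalRing.ResidueField A))
    (hpA : (p : A) ∈ IsLocalRing.maximalIdeal A)
    (h : ∀ n : ℕ, ∃ (M : Type) (_ : AddCommGroup M) (act : Gal → M → M) (f : ρ.V →+ M),
      HasFlatModel p act ∧ (∀ σ v, f (ρ.ρ σ v) = act σ (f v)) ∧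
        ∀ v, f v = 0 → ∃ u : ρ.V, v = (p : A) ^ n • u) :
    ρ.IsFlatAt p := by
  refine isFlatAt_of_hasFlatModel hres fun I hI => ?_
  obtain ⟨n, hn⟩ := exists_pow_mem_of_finite_quotient hpA I hI
  obtain ⟨M, _, act, f, hM, hf, hker⟩ := h n
  obtain ⟨hfin, O, hO⟩ := hM
  set S : Submodule A ρ.V := I • ⊤
  have hker' : f.ker ≤ S.toAddSubgroup := by
    intro v hv
    obtain ⟨u, rfl⟩ := hker v hv
    exact Submodule.smul_mem_smul hn Submodule.mem_top
  -- the image of `f` is stable
  let actI : Gal → f.range → f.range := fun σ x =>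
    ⟨act σ x, by obtain ⟨v, hv⟩ := x.2; exact ⟨ρ.ρ σ v, by rw [hf, hv]⟩⟩
  have hI' : HasFlatModel p actI :=
    HasFlatModel.of_injective ⟨hfin, O, hO⟩ f.range.subtype Subtype.val_injective fun _ _ => rfl
  let g : f.range →+ ρ.V ⧸ S :=
    (QuotientAddGroup.lift f.ker S.mkQ.toAddMonoidHom
      (fun v hv => (Submodule.Quotient.mk_eq_zero S).mpr (hker' hv))).comp
      (QuotientAddGroup.quotientKerEquivRange f).symm.toAddMonoidHom
  have hg : ∀ v : ρ.V, g ⟨f v, v, rfl⟩ = S.mkQ v := by
    intro v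
    show QuotientAddGroup.lift f.ker S.mkQ.toAddMonoidHom
      (fun v hv => (Submodule.Quotient.mk_eq_zero S).mpr (hker' hv))
      ((QuotientAddGroup.quotientKerEquivRange f).symm ⟨f v, v, rfl⟩) = _
    have : (QuotientAddGroup.quotientKerEquivRange f).symm ⟨f v, v, rfl⟩ = QuotientAddGroup.mk v :=
      (QuotientAddGroup.quotientKerEquivRange f).injective (by rw [AddEquiv.apply_symm_apply]; rfl)
    rw [this]
    rfl
  refine hI'.of_surjective g ?_ ?_
  · intro x
    obtain ⟨v, rfl⟩ := S.mkQ_surjective x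
    exact ⟨_, hg v⟩
  · rintro σ ⟨_, v, rfl⟩
    have h1 : actI σ ⟨f v, v, rfl⟩ = ⟨f (ρ.ρ σ v), ρ.ρ σ v, rfl⟩ := Subtype.ext (hf σ v).symm
    rw [h1, hg, hg]
    rfl

end Fermat.Agent.FlatModels
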