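import Fermat.Agent.FlatModels.Functions
import Mathlib.RingTheory.HopfAlgebra.Convolution
import Mathlib.RingTheory.Bialgebra.Convolution

/-!
# Finite flat models over `ℤ₍ₚ₎` as Hopf orders

`HasFlatModel p act` says that the finite Galois module `(M, act)` is the module of `ℚ̄`-points
of a finite flat commutative group scheme over `ℤ₍ₚ₎`, phrased through an order of functions on `M`
(`exists_hopfAlgebra`, `of_hopfAlgebra` convert to and from the form used in the Prelude).
-/

set_option autoImplicit false

noncomputable section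

namespace Fermat.Agent.FlatModels

open scoped TensorProduct

variable {p : ℕ}

section Defs

variable {M : Type*} [AddCommGroup M]

/-- A Hopf order in the functions on the finite Galois module `M`. -/
structure IsHopfOrder (act : Gal → M → M) (O : Subalgebra (Rp p) (M → Qbar)) : Prop where
  finite : Module.Finite (Rp p) O
  equivariant : ∀ h ∈ O, IsEquivariant act h
  separates : ∀ x y : M, (∀ h ∈ O, h x = h y) → x = y
  comul : ∀ h ∈ O, (fun z : M × M => h (z.1 + z.2)) ∈ (mulMap O.val O.val).range

/-- `M` has a finite flat model over `ℤ₍ₚ₎`. -/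
def HasFlatModel (p : ℕ) (act : Gal → M → M) : Prop :=
  Finite M ∧ ∃ O : Subalgebra (Rp p) (M → Qbar), IsHopfOrder act O

end Defs

section Hopf

variable {M : Type*} [AddCommGroup M] {act : Gal → M → M} {O : Subalgebra (Rp p) (M → Qbar)}

/-- The action on the points of a Hopf order is additive. -/
theorem IsHopfOrder.act_add (hO : IsHopfOrder act O) (σ : Gal) (x y : M) :
    act σ (x + y) = act σ x + act σ y := by
  refine hO.separates _ _ fun h hh => ?_
  obtain ⟨t, ht⟩ := hO.comul h hh
  have h1 := congrFun ht (act σ x, act σ y)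
  have h2 := congrFun ht (x, y)
  have h3 := isEquivariant_mulMap (actX := act) (actY := act) (fA := O.val) (fB := O.val)
    (fun a => hO.equivariant a a.2) (fun a => hO.equivariant a a.2) t σ (x, y)
  simp only [Prod.map_apply] at h3
  rw [hO.equivariant h hh σ (x + y)]
  exact (congrArg σ h2.symm).trans (h3.symm.trans h1)

/-- Each automorphism acts injectively, as the order separates points. -/
theorem IsHopfOrder.act_injective (hO : IsHopfOrder act O) (σ : Gal) :
    Function.Injective (act σ) := fun x y hxy => by
  refine hO.separates _ _ fun h hh => ?_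
  have := congrArg h hxy
  rwa [hO.equivariant h hh σ x, hO.equivariant h hh σ y, σ.injective.eq_iff] at this

/-- Each automorphism acts surjectively on a finite module. -/
theorem IsHopfOrder.act_surjective [Finite M] (hO : IsHopfOrder act O) (σ : Gal) :
    Function.Surjective (act σ) :=
  Finite.injective_iff_surjective.mp (hO.act_injective σ)

/-- The action fixes `0`. -/
theorem IsHopfOrder.act_zero (hO : IsHopfOrder act O) (σ : Gal) : act σ 0 = 0 := by
  have h := hO.act_add σ 0 0
  simpa using h

/-- A Hopf order is free over `ℤ₍ₚ₎`. -/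
theorem IsHopfOrder.free (hO : IsHopfOrder act O) : Module.Free (Rp p) O :=
  haveI := hO.finite
  Module.free_of_finite_type_torsion_free'

/-- The values of the functions in a Hopf order are integral over `ℤ₍ₚ₎`. -/
theorem IsHopfOrder.isIntegral_apply (hO : IsHopfOrder act O) {h : M → Qbar} (hh : h ∈ O)
    (x : M) : IsIntegral (Rp p) (h x) :=
  haveI := hO.finite
  (Algebra.IsIntegral.isIntegral (⟨h, hh⟩ : O)).map
    ((Pi.evalAlgHom (Rp p) (fun _ => Qbar) x).comp O.val)

/-- The values at `0` lie in `ℤ₍ₚ₎`. -/
theorem IsHopfOrder.exists_eq_apply_zero (hO : IsHopfOrder act O) {h : M → Qbar} (hh : h ∈ O) :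
    h 0 ∈ Set.range (algebraMap (Rp p) Qbar) :=
  mem_range_of_fixed_of_isIntegral
    (fun σ => by rw [← hO.equivariant h hh σ 0, hO.act_zero]) (hO.isIntegral_apply hh 0)

/-- An algebra containing the pullbacks along `f` and `g` contains those along `f + g`. -/
theorem IsHopfOrder.comp_add_mem (hO : IsHopfOrder act O) {X : Type*}
    {f g : X → M} (S : Subalgebra (Rp p) (X → Qbar)) (hf : ∀ h ∈ O, h ∘ f ∈ S)
    (hg : ∀ h ∈ O, h ∘ g ∈ S) {h : M → Qbar} (hh : h ∈ O) :
    h ∘ (f + g) ∈ S := by
  obtain ⟨t, ht⟩ := hO.comul h hh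
  have heq : h ∘ (f + g) = fun x => mulMap O.val O.val t (f x, g x) :=
    funext fun x => (congrFun ht (f x, g x)).symm
  rw [heq]
  clear ht heq
  induction t using TensorProduct.induction_on with
  | zero => simpa [Pi.zero_def] using S.zero_mem
  | tmul a b => exact S.mul_mem (hf a a.2) (hg b b.2)
  | add u v hu hv =>
    have := S.add_mem hu hv
    simpa [Pi.add_def, map_add] using this

/-- A Hopf order is stable under the antipode. -/
theorem IsHopfOrder.comp_neg_mem [Finite M] (hO : IsHopfOrder act O) {h : M → Qbar} (hh : h ∈ O) :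
    h ∘ Neg.neg ∈ O := by
  have key : ∀ n : ℕ, ∀ h ∈ O, h ∘ (fun x : M => n • x) ∈ O := by
    intro n
    induction n with
    | zero =>
      intro h hh
      obtain ⟨r, hr⟩ := hO.exists_eq_apply_zero hh
      have : h ∘ (fun x : M => 0 • x) = algebraMap (Rp p) (M → Qbar) r := by
        funext x
        simp [hr]
      rw [this]
      exact O.algebraMap_mem r
    | succ n ih =>
      intro h hh
      have := hO.comp_add_mem (f := fun x : M => n • x) (g := id) O ih (fun a ha => ha) hh
      simpa [Pi.add_def, succ_nsmul] using this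
  have hneg : (Neg.neg : M → M) = fun x => (Nat.card M - 1) • x := by
    funext x
    rw [neg_eq_iff_add_eq_zero, ← succ_nsmul', Nat.sub_add_cancel Nat.card_pos,
      card_nsmul_eq_zero']
  rw [hneg]
  exact key _ h hh

variable [Finite M]

/-- A Hopf order gives the linearly independent spanning set of all functions. -/
theorem IsHopfOrder.span_eq_top (hO : IsHopfOrder act O) :
    Submodule.span Qbar (O : Set (M → Qbar)) = ⊤ := by
  classical
  have := Fintype.ofFinite M
  set A := Algebra.adjoin Qbar (O : Set (M → Qbar)) with hA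
  have hAS : Subalgebra.toSubmodule A = Submodule.span Qbar (O : Set (M → Qbar)) := by
    rw [hA, Algebra.adjoin_eq_span, show Submonoid.closure (O : Set (M → Qbar)) =
      O.toSubsemiring.toSubmonoid from Submonoid.closure_eq _]
    rfl
  have hsingle : ∀ x : M, Pi.single x (1 : Qbar) ∈ A := by
    intro x
    have hsep : ∀ y : M, y ≠ x → ∃ f ∈ A, f y = 0 ∧ f x = 1 := by
      intro y hy
      have hex : ∃ h ∈ O, h y ≠ h x := by
        by_contra hcon
        push Not at hcon
        exact hy (hO.separates y x hcon)
      obtain ⟨h, hh, hne⟩ := hex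
      refine ⟨(h x - h y)⁻¹ • (h - algebraMap Qbar (M → Qbar) (h y)),
        A.smul_mem (A.sub_mem (Algebra.subset_adjoin hh) (A.algebraMap_mem _)) _, ?_, ?_⟩
      · simp
      · simp [inv_mul_cancel₀ (sub_ne_zero.mpr (Ne.symm hne))]
    choose! f hfA hf0 hf1 using hsep
    have : Pi.single x (1 : Qbar) = ∏ y ∈ Finset.univ.erase x, f y := by
      funext z
      rw [Finset.prod_apply]
      rcases eq_or_ne z x with rfl | hz
      · rw [Pi.single_eq_same]
        exact (Finset.prod_eq_one fun y hy => hf1 y (Finset.ne_of_mem_erase hy)).symm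
      · rw [Pi.single_eq_of_ne hz]
        exact (Finset.prod_eq_zero (f := fun y => f y z)
          (Finset.mem_erase.mpr ⟨hz, Finset.mem_univ _⟩) (hf0 z hz)).symm
    rw [this]
    exact prod_mem fun y hy => hfA y (Finset.ne_of_mem_erase hy)
  rw [eq_top_iff, ← hAS]
  intro f _
  have : f = ∑ x, f x • Pi.single x (1 : Qbar) := by
    funext z
    simp [Finset.sum_apply, Pi.single_apply]
  rw [this]
  exact sum_mem fun x _ => A.smul_mem (hsingle x) _

/-- Every point of a Hopf order is the evaluation at an element of `M`. -/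
theorem IsHopfOrder.exists_eq_eval (hO : IsHopfOrder act O) (φ : O →ₐ[Rp p] Qbar) :
    ∃ x : M, ∀ a : O, φ a = (a : M → Qbar) x := by
  classical
  have := hO.free
  have := Fintype.ofFinite M
  let b := Module.Free.chooseBasis (Rp p) O
  have hli : LinearIndependent Qbar (fun i => (b i : M → Qbar)) :=
    linearIndependent_qbar hO.act_surjective (fun i => hO.equivariant _ (b i).2)
      (b.linearIndependent.map' O.val.toLinearMap (LinearMap.ker_eq_bot.mpr Subtype.val_injective))
  let L : Qbar ⊗[Rp p] O →ₐ[Qbar] (M → Qbar) :=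
    Algebra.TensorProduct.lift (Algebra.ofId Qbar (M → Qbar)) O.val (fun _ _ => Commute.all _ _)
  let bT := Algebra.TensorProduct.basis Qbar b
  have hLb : ∀ i, L (bT i) = (b i : M → Qbar) := fun i => by
    show L (Algebra.TensorProduct.basis Qbar b i) = _
    rw [Algebra.TensorProduct.basis_apply]
    show Algebra.TensorProduct.lift _ _ _ ((1 : Qbar) ⊗ₜ[Rp p] b i) = _
    rw [Algebra.TensorProduct.lift_tmul, map_one, one_mul]
    rfl
  have hinj : Function.Injective L := by
    rw [injective_iff_map_eq_zero]
    intro t ht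
    have h1 : Finsupp.linearCombination Qbar (fun i => (b i : M → Qbar)) (bT.repr t) = L t := by
      conv_rhs => rw [← bT.linearCombination_repr t]
      rw [Finsupp.linearCombination_apply, Finsupp.linearCombination_apply, map_finsuppSum]
      simp only [map_smul, hLb]
    have h2 := linearIndependent_iff.mp hli _ (h1.trans ht)
    exact bT.repr.map_eq_zero_iff.mp h2
  have hsurj : Function.Surjective L := by
    have : Submodule.span Qbar (O : Set (M → Qbar)) ≤ LinearMap.range L.toLinearMap := by
      rw [Submodule.span_le]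
      intro h hh
      exact ⟨1 ⊗ₜ ⟨h, hh⟩, by simp [L]⟩
    rw [hO.span_eq_top] at this
    intro f
    exact this (Submodule.mem_top (x := f))
  let e := AlgEquiv.ofBijective L ⟨hinj, hsurj⟩
  let φ' : (M → Qbar) →ₐ[Qbar] Qbar :=
    (Algebra.TensorProduct.lift (Algebra.ofId Qbar Qbar) φ (fun _ _ => Commute.all _ _)).comp
      e.symm.toAlgHom
  have hφ' : ∀ a : O, φ' (a : M → Qbar) = φ a := by
    intro a
    have hea : e.symm (a : M → Qbar) = (1 : Qbar) ⊗ₜ[Rp p] a :=
      e.injective (by
        rw [AlgEquiv.apply_symm_apply]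
        show (a : M → Qbar) = L ((1 : Qbar) ⊗ₜ[Rp p] a)
        simp [L])
    show Algebra.TensorProduct.lift (Algebra.ofId Qbar Qbar) φ (fun _ _ => Commute.all _ _)
      (e.symm (a : M → Qbar)) = _
    rw [hea]
    simp
  have hone : ∑ x, φ' (Pi.single x 1) = 1 := by
    rw [← map_sum, show (∑ x, Pi.single x (1 : Qbar) : M → Qbar) = 1 from
      Finset.univ_sum_single (1 : M → Qbar), map_one]
  obtain ⟨x, -, hx⟩ := Finset.exists_ne_zero_of_sum_ne_zero (by rw [hone]; exact one_ne_zero)
  refine ⟨x, fun a => ?_⟩
  have hmul : (a : M → Qbar) * Pi.single x 1 = (a : M → Qbar) x • Pi.single x (1 : Qbar) := by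
    funext z
    rcases eq_or_ne z x with rfl | hz <;> simp [*]
  have := congrArg φ' hmul
  rw [map_mul, map_smul, smul_eq_mul, hφ'] at this
  exact mul_right_cancel₀ hx this

end Hopf

end Fermat.Agent.FlatModels
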