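import Fermat.Prelude.Def_GaloisRep_Flat
import Mathlib.FieldTheory.Galois.Infinite
import Mathlib.RingTheory.PrincipalIdealDomain
import Mathlib.LinearAlgebra.FreeModule.PID
import Mathlib.RingTheory.Localization.FractionRing
import Mathlib.RingTheory.Localization.Module
import Mathlib.RingTheory.TensorProduct.Finite
import Mathlib.RingTheory.TensorProduct.Maps
import Mathlib.LinearAlgebra.TensorProduct.Basis
import Mathlib.FieldTheory.IsAlgClosed.AlgebraicClosure
import Mathlib.FieldTheory.Perfect

/-!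
# Galois equivariant functions on finite sets, with values in `ℚ̄`

Descent for `ℤ₍ₚ₎`-linearly independent equivariant functions.
-/

set_option autoImplicit false

noncomputable section

namespace Fermat.Agent.FlatModels

open scoped TensorProduct

/-- `ℤ₍ₚ₎`. -/
abbrev Rp (p : ℕ) := GaloisRep.ratLocalizedAt p

/-- `ℚ̄`. -/
abbrev Qbar := AlgebraicClosure ℚ

/-- The absolute Galois group of `ℚ`. -/
abbrev Gal := AlgebraicClosure ℚ ≃ₐ[ℚ] AlgebraicClosure ℚ

variable {p : ℕ}

instance instIsGaloisQbar : IsGalois ℚ Qbar :=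
  haveI : Algebra.IsAlgebraic ℚ Qbar := AlgebraicClosure.isAlgebraic ℚ
  haveI : IsAlgClosure ℚ Qbar := ⟨inferInstance, inferInstance⟩
  { to_isSeparable := Algebra.IsAlgebraic.isSeparable_of_perfectField
    to_normal := IsAlgClosure.normal ℚ Qbar }

instance : IsPrincipalIdealRing (Rp p) := by
  refine ⟨fun I => ?_⟩
  obtain ⟨n, hn⟩ :=
    (IsPrincipalIdealRing.principal (I.comap (algebraMap ℤ (Rp p)))).principal
  refine ⟨⟨algebraMap ℤ (Rp p) n, ?_⟩⟩
  apply le_antisymm
  · intro q hq
    have hmem : ((q : ℚ).num : ℤ) ∈ I.comap (algebraMap ℤ (Rp p)) := by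
      rw [Ideal.mem_comap]
      have : algebraMap ℤ (Rp p) (q : ℚ).num = q * (((q : ℚ).den : ℤ) : Rp p) := by
        apply Subtype.ext
        simp [Rat.mul_den_eq_num]
      rw [this]
      exact I.mul_mem_right _ hq
    rw [hn, Submodule.mem_span_singleton] at hmem
    obtain ⟨a, ha⟩ := hmem
    have hinv : ((q : ℚ).den : ℚ)⁻¹ ∈ Rp p := by
      show ((q : ℚ).den : ℚ)⁻¹.den.Coprime p
      rw [Rat.inv_natCast_den_of_pos (Rat.den_pos _)]
      exact q.2
    rw [Submodule.mem_span_singleton]
    refine ⟨(a : Rp p) * ⟨_, hinv⟩, ?_⟩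
    apply Subtype.ext
    have h1 : ((a : ℤ) * n : ℚ) = ((q : ℚ).num : ℚ) := by
      rw [smul_eq_mul] at ha
      exact_mod_cast ha
    simp only [smul_eq_mul, eq_intCast, Subring.coe_mul, Subring.coe_intCast]
    calc (a : ℚ) * ((q : ℚ).den : ℚ)⁻¹ * n = ((a : ℤ) * n : ℚ) / (q : ℚ).den := by ring
      _ = _ := by rw [h1, Rat.num_div_den]
  · rw [Submodule.span_singleton_le_iff_mem]
    have : n ∈ I.comap (algebraMap ℤ (Rp p)) := hn ▸ Submodule.mem_span_singleton_self n
    exact Ideal.mem_comap.mp this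

instance : IsFractionRing (Rp p) ℚ where
  map_units r := by
    have : ((r : Rp p) : ℚ) ≠ 0 := fun h => nonZeroDivisors.ne_zero r.2 (Subtype.ext h)
    exact isUnit_iff_ne_zero.mpr this
  surj q := by
    refine ⟨((q.num : Rp p), ⟨((q.den : ℕ) : Rp p), ?_⟩), ?_⟩
    · refine mem_nonZeroDivisors_of_ne_zero fun h => q.den_ne_zero ?_
      have := congrArg Subtype.val h
      exact_mod_cast this
    · show q * (((q.den : ℕ) : Rp p) : ℚ) = (((q.num : ℤ) : Rp p) : ℚ)
      simp [Rat.mul_den_eq_num]
  exists_of_eq {a b} h := ⟨1, by rw [show a = b from Subtype.ext h]⟩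

/-- `ℤ₍ₚ₎ → ℚ̄` is injective. -/
lemma algebraMap_qbar_injective : Function.Injective (algebraMap (Rp p) Qbar) :=
  (algebraMap ℚ Qbar).injective.comp Subtype.val_injective

instance : Module.IsTorsionFree (Rp p) Qbar :=
  Module.isTorsionFree_iff_algebraMap_injective.mpr algebraMap_qbar_injective

/-- An element of `ℚ̄` fixed by Galois and integral over `ℤ₍ₚ₎` lies in `ℤ₍ₚ₎`. -/
lemma mem_range_of_fixed_of_isIntegral {x : Qbar} (hfix : ∀ σ : Gal, σ x = x)
    (hint : IsIntegral (Rp p) x) : x ∈ Set.range (algebraMap (Rp p) Qbar) := by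
  obtain ⟨q, rfl⟩ := (InfiniteGalois.mem_range_algebraMap_iff_fixed x).mpr hfix
  have hq : IsIntegral (Rp p) q :=
    (isIntegral_algHom_iff (IsScalarTower.toAlgHom (Rp p) ℚ Qbar) (algebraMap ℚ Qbar).injective).mp
      hint
  obtain ⟨r, hr⟩ := IsIntegrallyClosed.algebraMap_eq_of_integral hq
  exact ⟨r, by rw [IsScalarTower.algebraMap_apply (Rp p) ℚ Qbar, hr]⟩

section Descent

variable {X : Type*} {ι : Type*}

/-- Equivariant functions which are independent over `ℚ` are independent over `ℚ̄`. -/
theorem linearIndependent_qbar_of_rat {v : ι → (X → Qbar)}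
    (heq : ∀ σ : Gal, ∀ x : X, ∃ y : X, ∀ i, v i x = σ (v i y))
    (hv : LinearIndependent ℚ v) : LinearIndependent Qbar v := by
  classical
  rw [linearIndependent_iff'] at hv ⊢
  intro s
  induction s using Finset.strongInduction with
  | _ s ih =>
    intro c hc i hi
    by_contra hci
    set d : ι → Qbar := fun j => (c i)⁻¹ * c j with hd
    have hdi : d i = 1 := inv_mul_cancel₀ hci
    have hsum : ∀ x, ∑ j ∈ s, d j * v j x = 0 := fun x => by
      have := congrFun hc x
      simp only [Finset.sum_apply, Pi.smul_apply, smul_eq_mul, Pi.zero_apply] at this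
      simp only [hd, mul_assoc, ← Finset.mul_sum, this, mul_zero]
    have hfix : ∀ j ∈ s, ∀ σ : Gal, σ (d j) = d j := by
      intro j hj σ
      rcases eq_or_ne j i with rfl | hji
      · rw [hdi, map_one]
      have hzero : ∑ k ∈ s.erase i, (σ (d k) - d k) • v k = 0 := by
        funext x
        obtain ⟨y, hy⟩ := heq σ x
        have h1 : ∑ k ∈ s, σ (d k) * v k x = 0 := by
          simp only [hy, ← map_mul, ← map_sum, hsum, map_zero]
        have h2 : ∑ k ∈ s, (σ (d k) - d k) * v k x = 0 := by
          simp only [sub_mul, Finset.sum_sub_distrib, h1, hsum, sub_zero]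
        rw [← Finset.add_sum_erase s _ hi, hdi, map_one, sub_self, zero_mul, zero_add] at h2
        simpa [Finset.sum_apply] using h2
      have := ih (s.erase i) (Finset.erase_ssubset hi) (fun k => σ (d k) - d k) hzero j
        (Finset.mem_erase.mpr ⟨hji, hj⟩)
      exact sub_eq_zero.mp this
    have hrat : ∀ j ∈ s, ∃ q : ℚ, algebraMap ℚ Qbar q = d j := fun j hj =>
      (InfiniteGalois.mem_range_algebraMap_iff_fixed _).mpr (hfix j hj)
    choose! q hq using hrat
    have hq0 : ∑ j ∈ s, q j • v j = 0 := by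
      funext x
      rw [Finset.sum_apply, Pi.zero_apply, ← hsum x]
      refine Finset.sum_congr rfl fun j hj => ?_
      rw [Pi.smul_apply, Algebra.smul_def, hq j hj]
    have := hv s q hq0 i hi
    have h1 := hq i hi
    rw [this, map_zero, hdi] at h1
    exact zero_ne_one h1

end Descent

section Equivariant

variable {X : Type*}

/-- `f` commutes with `act` on the source and Galois on `ℚ̄`. -/
def IsEquivariant (act : Gal → X → X) (f : X → Qbar) : Prop :=
  ∀ (σ : Gal) (x : X), f (act σ x) = σ (f x)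

/-- Galois descent: equivariant functions independent over `ℤ₍ₚ₎` are independent over `ℚ̄`. -/
theorem linearIndependent_qbar {ι : Type*} {act : Gal → X → X}
    (hsurj : ∀ σ, Function.Surjective (act σ)) {v : ι → (X → Qbar)}
    (heq : ∀ i, IsEquivariant act (v i)) (hv : LinearIndependent (Rp p) v) :
    LinearIndependent Qbar v :=
  linearIndependent_qbar_of_rat (fun σ x => by
    obtain ⟨y, rfl⟩ := hsurj σ x
    exact ⟨y, fun i => heq i σ y⟩) ((LinearIndependent.iff_fractionRing (Rp p) ℚ).mp hv)

/-- Product of functions of separate variables, as a map on the tensor product. -/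
def mulMap {Y A B : Type*} [CommRing A] [CommRing B] [Algebra (Rp p) A] [Algebra (Rp p) B]
    (fA : A →ₐ[Rp p] (X → Qbar)) (fB : B →ₐ[Rp p] (Y → Qbar)) :
    A ⊗[Rp p] B →ₐ[Rp p] (X × Y → Qbar) :=
  Algebra.TensorProduct.productMap
    ((AlgHom.pi fun z : X × Y => Pi.evalAlgHom (Rp p) (fun _ => Qbar) z.1).comp fA)
    ((AlgHom.pi fun z : X × Y => Pi.evalAlgHom (Rp p) (fun _ => Qbar) z.2).comp fB)

/-- The value of `mulMap` at a pure tensor. -/
@[simp]
theorem mulMap_tmul {Y A B : Type*} [CommRing A] [CommRing B] [Algebra (Rp p) A]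
    [Algebra (Rp p) B] (fA : A →ₐ[Rp p] (X → Qbar)) (fB : B →ₐ[Rp p] (Y → Qbar)) (a : A)
    (b : B) (z : X × Y) : mulMap fA fB (a ⊗ₜ b) z = fA a z.1 * fB b z.2 := rfl

/-- Products of equivariant functions are equivariant. -/
theorem isEquivariant_mulMap {Y A B : Type*} [CommRing A] [CommRing B] [Algebra (Rp p) A]
    [Algebra (Rp p) B] {actX : Gal → X → X} {actY : Gal → Y → Y}
    {fA : A →ₐ[Rp p] (X → Qbar)} {fB : B →ₐ[Rp p] (Y → Qbar)}
    (eA : ∀ a, IsEquivariant actX (fA a)) (eB : ∀ b, IsEquivariant actY (fB b))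
    (t : A ⊗[Rp p] B) :
    IsEquivariant (fun σ => Prod.map (actX σ) (actY σ)) (mulMap fA fB t) := by
  intro σ z
  induction t using TensorProduct.induction_on with
  | zero => simp
  | tmul a b =>
    rw [mulMap_tmul, mulMap_tmul, map_mul, ← eA a σ, ← eB b σ]
    rfl
  | add x y hx hy => simp only [map_add, Pi.add_apply, hx, hy]

/-- The product map of two free algebras of equivariant functions is injective. -/
theorem mulMap_injective {Y A B : Type*} [CommRing A] [CommRing B] [Algebra (Rp p) A]
    [Algebra (Rp p) B] [Module.Free (Rp p) A] [Module.Free (Rp p) B]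
    {actX : Gal → X → X} {actY : Gal → Y → Y}
    (hX : ∀ σ, Function.Surjective (actX σ)) (hY : ∀ σ, Function.Surjective (actY σ))
    {fA : A →ₐ[Rp p] (X → Qbar)} {fB : B →ₐ[Rp p] (Y → Qbar)}
    (eA : ∀ a, IsEquivariant actX (fA a)) (eB : ∀ b, IsEquivariant actY (fB b))
    (iA : Function.Injective fA) (iB : Function.Injective fB) :
    Function.Injective (mulMap fA fB) := by
  let bA := Module.Free.chooseBasis (Rp p) A
  let bB := Module.Free.chooseBasis (Rp p) B
  have hvA : LinearIndependent Qbar (fun i => fA (bA i)) :=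
    linearIndependent_qbar hX (fun i => eA _)
      (bA.linearIndependent.map' fA.toLinearMap (LinearMap.ker_eq_bot.mpr iA))
  have hvB : LinearIndependent Qbar (fun i => fB (bB i)) :=
    linearIndependent_qbar hY (fun i => eB _)
      (bB.linearIndependent.map' fB.toLinearMap (LinearMap.ker_eq_bot.mpr iB))
  rw [injective_iff_map_eq_zero]
  intro t ht
  refine (bA.tensorProduct bB).ext_elem fun ij => ?_
  classical
  set c := (bA.tensorProduct bB).repr t with hc
  have hexp : t = ∑ k ∈ c.support, c k • (bA k.1 ⊗ₜ[Rp p] bB k.2) := by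
    conv_lhs => rw [← (bA.tensorProduct bB).linearCombination_repr t]
    rw [Finsupp.linearCombination_apply, Finsupp.sum]
    exact Finset.sum_congr rfl fun k _ => by rw [Module.Basis.tensorProduct_apply']
  rw [map_zero, Finsupp.zero_apply]
  by_contra hij
  have hmem : ij ∈ c.support := Finsupp.mem_support_iff.mpr hij
  set s := c.support.image Prod.fst
  set u := c.support.image Prod.snd
  have hsum : ∀ x y, ∑ j ∈ u, (∑ i ∈ s, algebraMap (Rp p) Qbar (c (i, j)) * fA (bA i) x) *
      fB (bB j) y = 0 := by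
    intro x y
    have h0 := congrFun ht (x, y)
    rw [hexp, map_sum, Finset.sum_apply, Pi.zero_apply] at h0
    rw [← h0]
    have hsub : c.support ⊆ s ×ˢ u := fun k hk =>
      Finset.mem_product.mpr ⟨Finset.mem_image_of_mem _ hk, Finset.mem_image_of_mem _ hk⟩
    rw [Finset.sum_subset hsub fun k _ hk => by
      rw [Finsupp.notMem_support_iff.mp hk, zero_smul, map_zero, Pi.zero_apply]]
    rw [Finset.sum_product_right]
    refine Finset.sum_congr rfl fun j _ => ?_
    rw [Finset.sum_mul]
    refine Finset.sum_congr rfl fun i _ => ?_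
    rw [map_smul, Pi.smul_apply, mulMap_tmul, Algebra.smul_def, mul_assoc]
  have h1 : ∀ x, ∑ i ∈ s, algebraMap (Rp p) Qbar (c (i, ij.2)) * fA (bA i) x = 0 := by
    intro x
    refine linearIndependent_iff'.mp hvB u
      (fun j => ∑ i ∈ s, algebraMap (Rp p) Qbar (c (i, j)) * fA (bA i) x) ?_ ij.2
      (Finset.mem_image_of_mem _ hmem)
    funext y
    simpa [Finset.sum_apply] using hsum x y
  have h2 := linearIndependent_iff'.mp hvA s (fun i => algebraMap (Rp p) Qbar (c (i, ij.2)))
    (funext fun x => by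
      simpa [Finset.sum_apply, Algebra.smul_def] using h1 x) ij.1
    (Finset.mem_image_of_mem _ hmem)
  exact hij (algebraMap_qbar_injective (h2.trans (map_zero _).symm))

end Equivariant

end Fermat.Agent.FlatModels
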