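import Fermat.Agent.FlatModels.FlatAt

/-!
# Flatness is stable under base change to a ring with finite residue field
-/

set_option autoImplicit false

noncomputable section

namespace Fermat.Agent.FlatModels

open scoped TensorProduct

variable {p : ℕ} {A B : Type} [CommRing A] [IsLocalRing A] [CommRing B] [IsLocalRing B]

/-- Flatness at `p` is preserved by base change along a local homomorphism to a ring with finite
residue field. -/
theorem isFlatAt_baseChangeAlong (f : A →+* B) (hf : IsLocalHom f)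
    (hres : Finite (IsLocalRing.ResidueField B)) {ρ : GaloisRepAdic A} (h : ρ.IsFlatAt p) :
    (ρ.baseChangeAlong f hf).IsFlatAt p := by
  let _ : Algebra A B := f.toAlgebra
  refine isFlatAt_of_hasFlatModel hres fun I hI => ?_
  let J : Ideal A := I.comap f
  have hJ : Finite (A ⧸ J) :=
    Finite.of_injective (Ideal.quotientMap I f le_rfl) Ideal.quotientMap_injective
  let S : Submodule A ρ.V := J • ⊤
  let T : Submodule B (B ⊗[A] ρ.V) := I • ⊤
  let τ : B → (ρ.V ⧸ S) →+ (B ⊗[A] ρ.V) ⧸ T := fun c =>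
    QuotientAddGroup.lift S.toAddSubgroup
      (T.mkQ.toAddMonoidHom.comp ((TensorProduct.mk A B ρ.V) c).toAddMonoidHom) (by
        intro v hv
        show T.mkQ (c ⊗ₜ[A] v) = 0
        rw [Submodule.mkQ_apply, Submodule.Quotient.mk_eq_zero]
        refine Submodule.smul_induction_on (p := fun x => c ⊗ₜ[A] x ∈ T) hv ?_ ?_
        · intro a ha w _
          rw [TensorProduct.tmul_smul, TensorProduct.smul_tmul', Algebra.smul_def, ← smul_eq_mul,
            ← TensorProduct.smul_tmul']
          exact Submodule.smul_mem_smul ha Submodule.mem_top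
        · intro x y hx hy
          rw [TensorProduct.tmul_add]
          exact add_mem hx hy)
  have hpi := HasFlatModel.pi (ι := B ⧸ I) (N := fun _ => ρ.V ⧸ S)
    (fun _ => hasFlatModel_level_of_isFlatAt h J hJ)
  have : Finite (B ⧸ I) := hI
  cases nonempty_fintype (B ⧸ I)
  let sec : B ⧸ I → B := Function.surjInv Ideal.Quotient.mk_surjective
  let Ψ : (B ⧸ I → ρ.V ⧸ S) →+ (B ⊗[A] ρ.V) ⧸ T :=
    ∑ c, (τ (sec c)).comp (Pi.evalAddMonoidHom (fun _ : B ⧸ I => ρ.V ⧸ S) c)
  have hΨ : ∀ v, Ψ v = ∑ c, τ (sec c) (v c) := fun v => by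
    simp [Ψ, AddMonoidHom.finsetSum_apply]
  have hT : ∀ σ, T ≤ T.comap ((ρ.ρ σ).baseChange B) := fun σ => by
    rw [← Submodule.map_le_iff_le_comap, Submodule.map_smul'']
    exact Submodule.smul_mono le_rfl le_top
  show HasFlatModel p fun σ (x : (B ⊗[A] ρ.V) ⧸ T) =>
    Submodule.mapQ T T ((ρ.ρ σ).baseChange B) (hT σ) x
  refine hpi.of_surjective Ψ ?_ fun σ v => ?_
  · intro z
    obtain ⟨z, rfl⟩ := Submodule.Quotient.mk_surjective T z
    induction z using TensorProduct.induction_on with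
    | zero => exact ⟨0, map_zero _⟩
    | tmul c w =>
      classical
      refine ⟨Pi.single (Ideal.Quotient.mk I c) (S.mkQ w), ?_⟩
      rw [hΨ, Finset.sum_eq_single (Ideal.Quotient.mk I c)
        (fun d _ hd => by rw [Pi.single_eq_of_ne hd, map_zero])
        (fun h => absurd (Finset.mem_univ _) h), Pi.single_eq_same]
      show T.mkQ (sec (Ideal.Quotient.mk I c) ⊗ₜ[A] w) = T.mkQ (c ⊗ₜ[A] w)
      rw [← sub_eq_zero, ← map_sub, ← TensorProduct.sub_tmul, Submodule.mkQ_apply,
        Submodule.Quotient.mk_eq_zero]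
      have hd : sec (Ideal.Quotient.mk I c) - c ∈ I :=
        Ideal.Quotient.eq.mp (Function.surjInv_eq Ideal.Quotient.mk_surjective _)
      rw [show (sec (Ideal.Quotient.mk I c) - c) ⊗ₜ[A] w =
          (sec (Ideal.Quotient.mk I c) - c) • ((1 : B) ⊗ₜ[A] w) by
        rw [TensorProduct.smul_tmul', smul_eq_mul, mul_one]]
      exact Submodule.smul_mem_smul hd Submodule.mem_top
    | add x y hx hy =>
      obtain ⟨u, hu⟩ := hx
      obtain ⟨w, hw⟩ := hy
      exact ⟨u + w, by rw [map_add, hu, hw, Submodule.Quotient.mk_add]⟩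
  · show Ψ (fun c => ρ.levelAction J σ (v c)) =
      Submodule.mapQ T T ((ρ.ρ σ).baseChange B) (hT σ) (Ψ v)
    rw [hΨ, hΨ, map_sum]
    refine Finset.sum_congr rfl fun c _ => ?_
    obtain ⟨w, hw⟩ := Submodule.Quotient.mk_surjective S (v c)
    rw [← hw]
    show T.mkQ (sec c ⊗ₜ[A] ρ.ρ σ w) = T.mkQ ((ρ.ρ σ).baseChange B (sec c ⊗ₜ[A] w))
    rw [LinearMap.baseChange_tmul]

end Fermat.Agent.FlatModels
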