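import Fermat.Agent.FlatModels.Closure
import Mathlib.LinearAlgebra.Trace
import Mathlib.LinearAlgebra.Matrix.ToLin
import Mathlib.RingTheory.Finiteness.Cardinality

/-!
# Galois modules with quadratic relations, compared with a two dimensional representation

If every group element satisfies, on a module `M` over `h`, a quadratic relation whose linear
coefficient approximates the trace of a representation `ρ` with full span, then each level
quotient of `ρ` is a quotient of a power of a stable subgroup of `M ^ M`.
-/

set_option autoImplicit false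

noncomputable section

namespace Fermat.Agent.FlatModels

section Abstract

variable {G : Type*} [Group G] {h : Type*} [CommRing h] {M : Type*} [AddCommGroup M] [Module h M]
  (r : G →* Module.End h M) (c d : G → h)

/-- The action of a formal combination. -/
def combAction : (G →₀ h) →ₗ[h] Module.End h M := Finsupp.linearCombination h r

/-- The formal trace of a combination. -/
def combTrace : (G →₀ h) →ₗ[h] h := Finsupp.linearCombination h c

variable {r c d}

/-- If a combination acts by zero, its formal trace kills all the formal traces of commutators. -/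
theorem smul_commutator_eq_zero
    (hrel : ∀ g, r g + d g • r g⁻¹ = c g • (1 : Module.End h M))
    (hd : ∀ g g' : G, ∀ m : M, d (g * g') • m = d g • d g' • m)
    (hdinj : ∀ g, ∀ m : M, d g • m = 0 → m = 0)
    (a : G →₀ h) (ha : combAction r a = 0) (σ τ υ : G) (m : M) :
    (combTrace c a * (c (σ * τ * υ) - c (τ * σ * υ))) • m = 0 := by
  set s : h := combTrace c a with hs
  -- the dual combination acts by the scalar `s`
  have hdual : ∀ m : M, ∑ g ∈ a.support, (a g * d g) • r g⁻¹ m = s • m := by
    intro m
    have h0 : ∑ g ∈ a.support, a g • r g m = 0 := by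
      have h1 := LinearMap.congr_fun ha m
      rw [combAction, Finsupp.linearCombination_apply, Finsupp.sum] at h1
      simpa [LinearMap.sum_apply] using h1
    have h2 : ∀ g ∈ a.support, (a g * d g) • r g⁻¹ m = (a g * c g) • m - a g • r g m := by
      intro g _
      have h3 := LinearMap.congr_fun (hrel g) m
      simp only [LinearMap.add_apply, LinearMap.smul_apply, Module.End.one_apply] at h3
      rw [mul_smul, mul_smul, ← h3, smul_add, add_sub_cancel_left]
    rw [Finset.sum_congr rfl h2, Finset.sum_sub_distrib, h0, sub_zero, ← Finset.sum_smul, hs,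
      combTrace, Finsupp.linearCombination_apply, Finsupp.sum]
    rfl
  -- translating the combination
  have hshift : ∀ (σ : G) (m : M),
      (d σ * s) • r σ⁻¹ m = (∑ g ∈ a.support, a g * c (σ * g)) • m := by
    intro σ m
    have h0 : ∑ g ∈ a.support, a g • r (σ * g) m = 0 := by
      have h1 := congrArg (r σ) (LinearMap.congr_fun ha m)
      rw [combAction, Finsupp.linearCombination_apply, Finsupp.sum] at h1
      simpa [LinearMap.sum_apply, map_mul, map_sum] using h1
    have h2 : ∀ g ∈ a.support,
        (a g * c (σ * g)) • m = a g • r (σ * g) m + d σ • ((a g * d g) • r g⁻¹ (r σ⁻¹ m)) := by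
      intro g _
      have h3 := LinearMap.congr_fun (hrel (σ * g)) m
      simp only [LinearMap.add_apply, LinearMap.smul_apply, Module.End.one_apply] at h3
      rw [mul_smul, ← h3, smul_add, mul_inv_rev, map_mul r g⁻¹, Module.End.mul_apply, hd,
        smul_smul (a g) (d σ), smul_smul (d σ) (a g * d g), smul_smul (a g * d σ)]
      congr 2
      ring
    rw [Finset.sum_smul, Finset.sum_congr rfl h2, Finset.sum_add_distrib, h0, zero_add,
      ← Finset.smul_sum, hdual, ← mul_smul]
  have hcomm : ∀ (x y : G) (m : M), s • r (x * y) m = s • r (y * x) m := by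
    intro x y m
    refine sub_eq_zero.mp (hdinj x⁻¹ _ ?_)
    rw [smul_sub, smul_smul, smul_smul, map_mul, map_mul, Module.End.mul_apply,
      Module.End.mul_apply]
    have e1 := hshift x⁻¹ (r y m)
    have e2 := hshift x⁻¹ m
    rw [inv_inv] at e1 e2
    rw [e1, ← map_smul (r y) (d x⁻¹ * s), e2, ← map_smul, sub_self]
  have hc : ∀ x : G, ∀ m : M, c x • m = r x m + d x • r x⁻¹ m := fun x m => by
    have h3 := LinearMap.congr_fun (hrel x) m
    simp only [LinearMap.add_apply, LinearMap.smul_apply, Module.End.one_apply] at h3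
    exact h3.symm
  rw [mul_smul, sub_smul, smul_sub, hc, hc, smul_add, smul_add]
  have h1 : s • r (σ * τ * υ) m = s • r (τ * σ * υ) m := by
    rw [map_mul r (σ * τ), Module.End.mul_apply, hcomm, map_mul r (τ * σ), Module.End.mul_apply]
  have h2 : s • r (σ * τ * υ)⁻¹ m = s • r (τ * σ * υ)⁻¹ m := by
    rw [mul_inv_rev, mul_inv_rev, mul_inv_rev (τ * σ), mul_inv_rev τ, map_mul r υ⁻¹,
      map_mul r υ⁻¹, Module.End.mul_apply, Module.End.mul_apply, ← map_smul (r υ⁻¹) s,
      ← map_smul (r υ⁻¹) s, hcomm]
  have h3 : d (σ * τ * υ) • s • r (σ * τ * υ)⁻¹ m = d (τ * σ * υ) • s • r (τ * σ * υ)⁻¹ m := by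
    rw [h2, hd, hd, hd, hd]
    simp only [smul_smul]
    congr 1
    ring
  rw [h1, smul_comm s (d _), h3, smul_comm s (d _), sub_self]

/-- Translating a combination composes its action with that of the group element. -/
theorem combAction_mapDomain (g : G) (a : G →₀ h) :
    combAction r (a.mapDomain (g * ·)) = r g * combAction r a := by
  simp only [combAction, Finsupp.linearCombination_mapDomain]
  rw [Finsupp.linearCombination_apply, Finsupp.linearCombination_apply, Finsupp.sum,
    Finsupp.sum, Finset.mul_sum]
  simp [map_mul]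

/-- The endomorphism of `V` attached to a combination through `π` and `ρ`. -/
def combEnd {A V : Type*} [CommRing A] [AddCommGroup V] [Module A V] (π : h →+* A)
    (ρ : G →* Module.End A V) : (G →₀ h) →+ Module.End A V :=
  Finsupp.liftAddHom fun g : G =>
    ((LinearMap.toSpanSingleton A (Module.End A V) (ρ g)).toAddMonoidHom).comp π.toAddMonoidHom

lemma combEnd_single {A V : Type*} [CommRing A] [AddCommGroup V] [Module A V] (π : h →+* A)
    (ρ : G →* Module.End A V) (g : G) (x : h) :
    combEnd π ρ (Finsupp.single g x) = π x • ρ g := by simp [combEnd]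

end Abstract

section Compare

variable {p : ℕ} {h : Type*} [CommRing h] {M : Type} [AddCommGroup M] [Module h M]
  {A : Type} [CommRing A] [Nontrivial A] {V : Type} [AddCommGroup V] [Module A V]

omit [Nontrivial A] in
/-- If the image of `ρ` spans, and `x` kills the traces of `[ρ σ, ρ τ] ρ υ` modulo `J`, then
`x ∈ J`. -/
theorem mem_of_mul_trace_commutator_mem {Γ : Type*} [Group Γ] (ρ : Γ →* Module.End A V)
    (b : Module.Basis (Fin 2) A V) (hspan : Submodule.span A (Set.range ρ) = ⊤) {J : Ideal A}
    {x : A}
    (hgrp : ∀ σ τ υ : Γ, x * LinearMap.trace A V ((ρ σ * ρ τ - ρ τ * ρ σ) * ρ υ) ∈ J) : x ∈ J := by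
  classical
  set e : Fin 2 → Fin 2 → Module.End A V := fun i j =>
    b.constr A fun k => if k = j then b i else 0
  have hall : ∀ F G U : Module.End A V,
      x * LinearMap.trace A V ((F * G - G * F) * U) ∈ J := by
    have step1 : ∀ σ τ : Γ, ∀ U : Module.End A V,
        x * LinearMap.trace A V ((ρ σ * ρ τ - ρ τ * ρ σ) * U) ∈ J := by
      intro σ τ U
      have hU : U ∈ Submodule.span A (Set.range ρ) := hspan ▸ Submodule.mem_top
      induction hU using Submodule.span_induction with
      | mem y hx => obtain ⟨υ, rfl⟩ := hx; exact hgrp σ τ υ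
      | zero => simp
      | add y z _ _ hx hy => rw [mul_add, map_add, mul_add]; exact J.add_mem hx hy
      | smul t y _ hx =>
        rw [mul_smul_comm, map_smul, smul_eq_mul, mul_left_comm]; exact J.mul_mem_left t hx
    have step2 : ∀ σ : Γ, ∀ G U : Module.End A V,
        x * LinearMap.trace A V ((ρ σ * G - G * ρ σ) * U) ∈ J := by
      intro σ G U
      have hG : G ∈ Submodule.span A (Set.range ρ) := hspan ▸ Submodule.mem_top
      induction hG using Submodule.span_induction with
      | mem y hx => obtain ⟨τ, rfl⟩ := hx; exact step1 σ τ U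
      | zero => simp
      | add y z _ _ hx hy =>
        rw [mul_add, add_mul, add_sub_add_comm, add_mul, map_add, mul_add]
        exact J.add_mem hx hy
      | smul t y _ hx =>
        rw [mul_smul_comm, smul_mul_assoc, ← smul_sub, smul_mul_assoc, map_smul, smul_eq_mul,
          mul_left_comm]
        exact J.mul_mem_left t hx
    intro F G U
    have hF : F ∈ Submodule.span A (Set.range ρ) := hspan ▸ Submodule.mem_top
    induction hF using Submodule.span_induction with
    | mem y hx => obtain ⟨σ, rfl⟩ := hx; exact step2 σ G U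
    | zero => simp
    | add y z _ _ hx hy =>
      rw [add_mul, mul_add, add_sub_add_comm, add_mul, map_add, mul_add]
      exact J.add_mem hx hy
    | smul t y _ hx =>
      rw [mul_smul_comm, smul_mul_assoc, ← smul_sub, smul_mul_assoc, map_smul, smul_eq_mul,
        mul_left_comm]
      exact J.mul_mem_left t hx
  have h1 := hall (e 0 1) (e 1 0) (e 0 0)
  have h2 : LinearMap.trace A V ((e 0 1 * e 1 0 - e 1 0 * e 0 1) * e 0 0) = 1 := by
    rw [LinearMap.trace_eq_matrix_trace A b, Matrix.trace_fin_two]
    simp [LinearMap.toMatrix_apply, e]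
  rwa [h2, mul_one] at h1

omit [Nontrivial A] in
/-- A combination acting by zero has formal trace in `J`. -/
theorem combTrace_mem_of_combAction_eq_zero {r : Gal →* Module.End h M} {c d : Gal → h}
    (hrel : ∀ g, r g + d g • r g⁻¹ = c g • (1 : Module.End h M))
    (hd : ∀ g g' : Gal, ∀ m : M, d (g * g') • m = d g • d g' • m)
    (hdinj : ∀ g, ∀ m : M, d g • m = 0 → m = 0)
    (π : h →+* A) (ρ : Gal →* Module.End A V) (b : Module.Basis (Fin 2) A V)
    (hspan : Submodule.span A (Set.range ρ) = ⊤) {J : Ideal A}
    (hann : ∀ x : h, (∀ m : M, x • m = 0) → π x ∈ J)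
    (htr : ∀ g, LinearMap.trace A V (ρ g) - π (c g) ∈ J)
    {a : Gal →₀ h} (ha : combAction r a = 0) : π (combTrace c a) ∈ J := by
  set s := combTrace c a
  refine mem_of_mul_trace_commutator_mem ρ b hspan fun σ τ υ => ?_
  have h1 : π (s * (c (σ * τ * υ) - c (τ * σ * υ))) ∈ J :=
    hann _ fun m => smul_commutator_eq_zero hrel hd hdinj a ha σ τ υ m
  have h2 := J.add_mem h1
    (J.mul_mem_left (π s) (J.sub_mem (htr (σ * τ * υ)) (htr (τ * σ * υ))))
  convert h2 using 1
  rw [sub_mul, map_sub, ← map_mul, ← map_mul, ← map_mul, ← map_mul]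
  simp only [map_mul π, map_sub π]
  ring

omit [Nontrivial A] in
/-- A combination acting by zero on `M` acts on `V` with values in `J V`. -/
theorem combEnd_apply_mem {r : Gal →* Module.End h M} {c d : Gal → h}
    (hrel : ∀ g, r g + d g • r g⁻¹ = c g • (1 : Module.End h M))
    (hd : ∀ g g' : Gal, ∀ m : M, d (g * g') • m = d g • d g' • m)
    (hdinj : ∀ g, ∀ m : M, d g • m = 0 → m = 0)
    (π : h →+* A) (ρ : Gal →* Module.End A V) (b : Module.Basis (Fin 2) A V)
    (hspan : Submodule.span A (Set.range ρ) = ⊤) {J : Ideal A}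
    (hann : ∀ x : h, (∀ m : M, x • m = 0) → π x ∈ J)
    (htr : ∀ g, LinearMap.trace A V (ρ g) - π (c g) ∈ J)
    {a : Gal →₀ h} (ha : combAction r a = 0) :
    ∀ v : V, combEnd π ρ a v ∈ J • (⊤ : Submodule A V) := by
  classical
  set e : Fin 2 → Fin 2 → Module.End A V := fun i j =>
    b.constr A fun k => if k = j then b i else 0
  set P := combEnd π ρ with hPdef
  have hP : ∀ g x, P (Finsupp.single g x) = π x • ρ g := combEnd_single π ρ
  let S : Submodule A V := J • ⊤
  have htrP : ∀ g' : Gal, LinearMap.trace A V (ρ g' * P a) ∈ J := by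
    intro g'
    have hb' := combTrace_mem_of_combAction_eq_zero hrel hd hdinj π ρ b hspan hann htr
      (a := a.mapDomain (g' * ·)) (by rw [combAction_mapDomain, ha, mul_zero])
    have : ∀ b : Gal →₀ h, LinearMap.trace A V (ρ g' * P b) -
        π (combTrace c (b.mapDomain (g' * ·))) ∈ J := by
      intro b
      induction b using Finsupp.induction_linear with
      | zero => simp
      | add x y hx hy =>
        rw [map_add, mul_add, map_add, Finsupp.mapDomain_add, map_add, map_add,
          add_sub_add_comm]
        exact J.add_mem hx hy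
      | single g x =>
        rw [hP, mul_smul_comm, map_smul, ← map_mul ρ, Finsupp.mapDomain_single, combTrace,
          Finsupp.linearCombination_single, smul_eq_mul, smul_eq_mul, map_mul π, ← mul_sub]
        exact J.mul_mem_left _ (htr _)
    simpa using J.add_mem (this a) hb'
  have hall : ∀ F : Module.End A V, LinearMap.trace A V (F * P a) ∈ J := by
    intro F
    have hF : F ∈ Submodule.span A (Set.range ρ) := hspan ▸ Submodule.mem_top
    induction hF using Submodule.span_induction with
    | mem x hx => obtain ⟨g', rfl⟩ := hx; exact htrP g'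
    | zero => simp
    | add x y _ _ hx hy => rw [add_mul, map_add]; exact J.add_mem hx hy
    | smul t x _ hx => rw [smul_mul_assoc, map_smul]; exact J.mul_mem_left t hx
  intro v
  rw [← b.sum_repr v, map_sum]
  refine Submodule.sum_mem _ fun j _ => ?_
  rw [map_smul]
  refine S.smul_mem _ ?_
  rw [← b.sum_repr (P a (b j))]
  refine Submodule.sum_mem _ fun i _ => Submodule.smul_mem_smul ?_ Submodule.mem_top
  have h1 := hall (e j i)
  have h2 : LinearMap.trace A V (e j i * P a) = b.repr (P a (b j)) i := by
    rw [LinearMap.trace_eq_matrix_trace A b, LinearMap.toMatrix_mul, Matrix.trace_fin_two]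
    fin_cases i <;> fin_cases j <;>
      simp [LinearMap.toMatrix_apply, e, Matrix.mul_apply]
  rwa [h2] at h1

/-- The endomorphisms of `M` given by the combinations form a Galois module with a flat model. -/
theorem hasFlatModel_range_combAction {r : Gal →* Module.End h M}
    (hM : HasFlatModel p (fun σ => (r σ : M → M)))
    {actE : Gal → (combAction r).toAddMonoidHom.range → (combAction r).toAddMonoidHom.range}
    (hactE : ∀ σ x, ((actE σ x : Module.End h M)) = r σ * x) : HasFlatModel p actE := by
  have := hM.1
  refine (HasFlatModel.pi (ι := M) (N := fun _ => M) (act := fun _ σ => (r σ : M → M))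
    (fun _ => hM)).of_injective
    ({ toFun := fun x m => (x : Module.End h M) m
       map_zero' := rfl
       map_add' := fun _ _ => rfl }) ?_ (fun σ x => ?_)
  · exact fun x y hxy => Subtype.ext (LinearMap.ext (congrFun hxy))
  · funext m
    exact LinearMap.congr_fun (hactE σ x) m

omit [Nontrivial A] in
/-- The level quotients of a representation with full span, on a module with flat model. -/
theorem hasFlatModel_quotient_of_quadratic {r : Gal →* Module.End h M} {c d : Gal → h}
    (hM : HasFlatModel p (fun σ => (r σ : M → M)))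
    (hrel : ∀ g, r g + d g • r g⁻¹ = c g • (1 : Module.End h M))
    (hd : ∀ g g' : Gal, ∀ m : M, d (g * g') • m = d g • d g' • m)
    (hdinj : ∀ g, ∀ m : M, d g • m = 0 → m = 0)
    (π : h →+* A) (ρ : Gal →* Module.End A V) (b : Module.Basis (Fin 2) A V)
    (hspan : Submodule.span A (Set.range ρ) = ⊤) (J : Ideal A) [Finite (A ⧸ J)]
    (hann : ∀ x : h, (∀ m : M, x • m = 0) → π x ∈ J)
    (htr : ∀ g, LinearMap.trace A V (ρ g) - π (c g) ∈ J)
    (act : Gal → V ⧸ (J • (⊤ : Submodule A V)) → V ⧸ (J • (⊤ : Submodule A V)))
    (hact : ∀ σ v, act σ (Submodule.Quotient.mk v) = Submodule.Quotient.mk (ρ σ v)) :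
    HasFlatModel p act := by
  classical
  have := hM.1
  let P : (Gal →₀ h) →+ Module.End A V := combEnd π ρ
  have hP : ∀ g x, P (Finsupp.single g x) = π x • ρ g := combEnd_single π ρ
  let S : Submodule A V := J • ⊤
  have hker : ∀ a : Gal →₀ h, combAction r a = 0 → ∀ v : V, P a v ∈ S :=
    fun a ha => combEnd_apply_mem hrel hd hdinj π ρ b hspan hann htr ha
  -- the Galois module `E`
  let E : AddSubgroup (Module.End h M) := (combAction r).toAddMonoidHom.range
  have hEstable : ∀ σ, ∀ x ∈ E, r σ * x ∈ E := by
    rintro σ _ ⟨a, rfl⟩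
    exact ⟨a.mapDomain (σ * ·), combAction_mapDomain σ a⟩
  let actE : Gal → E → E := fun σ x => ⟨r σ * x, hEstable σ x x.2⟩
  have hE : HasFlatModel p actE := hasFlatModel_range_combAction hM fun _ _ => rfl
  have : Finite E := hE.1
  let lift : E → (Gal →₀ h) := fun x => x.2.choose
  have hlift : ∀ x : E, combAction r (lift x) = x := fun x => x.2.choose_spec
  let ψ : E →+ V ⧸ S :=
    { toFun := fun x => S.mkQ (P (lift x) (b 0))
      map_zero' := (Submodule.Quotient.mk_eq_zero S).mpr
        (hker _ (by rw [hlift]; rfl) _)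
      map_add' := fun x y => by
        rw [← map_add, Submodule.mkQ_apply, Submodule.mkQ_apply, Submodule.Quotient.eq,
          ← LinearMap.add_apply, ← map_add, ← LinearMap.sub_apply, ← map_sub]
        exact hker _ (by rw [map_sub, map_add, hlift, hlift, hlift]; exact sub_self _) _ }
  have hψ : ∀ a : Gal →₀ h, ψ ⟨combAction r a, a, rfl⟩ = S.mkQ (P a (b 0)) := by
    intro a
    show S.mkQ (P (lift _) (b 0)) = _
    rw [Submodule.mkQ_apply, Submodule.mkQ_apply, Submodule.Quotient.eq,
      ← LinearMap.sub_apply, ← map_sub]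
    exact hker _ (by rw [map_sub, hlift]; exact sub_self _) _
  have hψact : ∀ σ x, ψ (actE σ x) = act σ (ψ x) := by
    rintro σ ⟨_, a, rfl⟩
    have h1 : actE σ ⟨combAction r a, a, rfl⟩ =
        ⟨combAction r (a.mapDomain (σ * ·)), _, rfl⟩ :=
      Subtype.ext (combAction_mapDomain σ a).symm
    refine (congrArg ψ h1).trans ((hψ _).trans ?_)
    rw [show ψ ⟨(combAction r).toAddMonoidHom a, a, rfl⟩ = S.mkQ (P a (b 0)) from hψ a,
      Submodule.mkQ_apply, Submodule.mkQ_apply, hact]
    congr 1
    clear h1
    induction a using Finsupp.induction_linear with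
    | zero => simp
    | add x y hx hy => simp [Finsupp.mapDomain_add, hx, hy]
    | single g x => simp [hP]
  -- `V / J V` is a quotient of a power of `E`
  let : Fintype (A ⧸ J) := Fintype.ofFinite _
  let rep : A ⧸ J → A := Quotient.out
  have hrep : ∀ t, Ideal.Quotient.mk J (rep t) = t := fun t => Quotient.out_eq t
  let Ψ : ((A ⧸ J) → E) →+ V ⧸ S :=
    ∑ t, (DistribSMul.toAddMonoidHom (V ⧸ S) (rep t)).comp (ψ.comp (Pi.evalAddMonoidHom _ t))
  have hΨ : ∀ x, Ψ x = ∑ t, rep t • ψ (x t) := fun x => by simp [Ψ]
  refine (HasFlatModel.pi (ι := A ⧸ J) (N := fun _ => E) (act := fun _ => actE)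
    (fun _ => hE)).of_surjective Ψ ?_ ?_
  · intro z
    obtain ⟨v, rfl⟩ := S.mkQ_surjective z
    obtain ⟨F, rfl⟩ : ∃ F : Module.End A V, F (b 0) = v :=
      ⟨b.constr A fun _ => v, by simp⟩
    suffices ∀ t : A, ∃ x, Ψ x = S.mkQ (t • F (b 0)) by simpa using this 1
    have hF : F ∈ Submodule.span A (Set.range ρ) := hspan ▸ Submodule.mem_top
    induction hF using Submodule.span_induction with
    | mem x hx =>
      obtain ⟨g, rfl⟩ := hx
      intro t
      refine ⟨Pi.single (Ideal.Quotient.mk J t) ⟨combAction r (Finsupp.single g 1), _, rfl⟩, ?_⟩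
      rw [hΨ, Finset.sum_eq_single (Ideal.Quotient.mk J t)
        (fun u _ hu => by rw [Pi.single_eq_of_ne hu, map_zero, smul_zero])
        (fun hu => absurd (Finset.mem_univ _) hu), Pi.single_eq_same, hψ, hP, map_one, one_smul,
        ← map_smul, Submodule.mkQ_apply, Submodule.mkQ_apply, Submodule.Quotient.eq, ← sub_smul]
      refine Submodule.smul_mem_smul ?_ Submodule.mem_top
      rw [← Ideal.Quotient.mk_eq_mk_iff_sub_mem]
      exact hrep _
    | zero => exact fun t => ⟨0, by simp⟩
    | add x y _ _ hx hy =>
      intro t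
      obtain ⟨u, hu⟩ := hx t
      obtain ⟨w, hw⟩ := hy t
      exact ⟨u + w, by rw [map_add, hu, hw, LinearMap.add_apply, smul_add, map_add]⟩
    | smul t' x _ hx =>
      intro t
      obtain ⟨u, hu⟩ := hx (t * t')
      exact ⟨u, by rw [hu, LinearMap.smul_apply, mul_smul]⟩
  · intro σ x
    rw [hΨ, hΨ]
    simp only [hψact]
    have hlin : ∀ (t : A) (z : V ⧸ S), act σ (t • z) = t • act σ z := by
      intro t z
      obtain ⟨v, rfl⟩ := S.mkQ_surjective z
      rw [Submodule.mkQ_apply, ← Submodule.Quotient.mk_smul, hact, hact, map_smul,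
        Submodule.Quotient.mk_smul]
    have hadd : ∀ z w : V ⧸ S, act σ (z + w) = act σ z + act σ w := by
      intro z w
      obtain ⟨v, rfl⟩ := S.mkQ_surjective z
      obtain ⟨u, rfl⟩ := S.mkQ_surjective w
      rw [Submodule.mkQ_apply, Submodule.mkQ_apply, ← Submodule.Quotient.mk_add, hact, hact,
        hact, map_add, Submodule.Quotient.mk_add]
    rw [← AddMonoidHom.mk'_apply (act σ) hadd, map_sum]
    exact Finset.sum_congr rfl fun t _ => (hlin _ _).symm

end Compare

end Fermat.Agent.FlatModels
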