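import Fermat.Prelude.Def_CuspForm_HeckeGaloisRepDatum
import Fermat.Agent.FlatModels.FlatAt
import Fermat.Agent.FlatModels.QuadraticModules
import Fermat.Agent.HeckeDatum.TraceInvariance
import Fermat.Agent.RepTheory.GaloisBridge
import Mathlib.RingTheory.Ideal.Quotient.Index
import Mathlib.RingTheory.Artinian.Ring

/-!
# Flatness of Hecke-Galois data at `p`

From Frobenius density and a supply of Hecke modules with finite flat models at `p` satisfying the
Eichler-Shimura relation, the representation of a Hecke-Galois datum is flat at `p`.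
-/

set_option autoImplicit false

noncomputable section

namespace Fermat.Agent.FlatModels

open Polynomial

/-- For every `j`, a Galois module over the Hecke algebra, killed by a power of `p`, with a finite
flat model at `p`, satisfying the Eichler-Shimura relation, with annihilator inside `p ^ j`. -/
def HasFlatHeckeModules (N : ℕ) [NeZero N] (S : Set ℕ) (p : ℕ) : Prop :=
  ∀ j : ℕ, ∃ (M : Type) (_ : AddCommGroup M) (_ : Module (CuspForm.heckeAlgebra N 2 S) M)
    (r : Gal →* Module.End (CuspForm.heckeAlgebra N 2 S) M) (k : ℕ) (S₀ : Finset ℕ),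
    (∀ m : M, p ^ k • m = 0) ∧
    GaloisFactorsThroughFiniteLevel r ∧
    HasFlatModel p (fun σ => (r σ : M → M)) ∧
    (∀ (ℓ : ℕ) (hℓ : ℓ.Prime) (hℓN : ¬ ℓ ∣ N) (hℓS : ℓ ∉ S), ℓ ∉ S₀ →
      ∀ A : ValuationSubring Qbar, A.LiesOverPrime ℓ →
        ∀ φ : Gal, A.IsFrobeniusAt φ ℓ → ∀ m : M,
          r φ (r φ m) - (CuspForm.heckeAlgebra.T hℓ hℓN hℓS : CuspForm.heckeAlgebra N 2 S) • r φ m
            + ℓ • m = 0) ∧
    (∀ t : CuspForm.heckeAlgebra N 2 S, (∀ m : M, t • m = 0) →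
      ∃ u : CuspForm.heckeAlgebra N 2 S,
        t = (p : CuspForm.heckeAlgebra N 2 S) ^ j * u)

theorem exists_maximalIdeal_pow_le {A : Type} [CommRing A] [IsLocalRing A] (I : Ideal A)
    (hI : Finite (A ⧸ I)) : ∃ n : ℕ, IsLocalRing.maximalIdeal A ^ n ≤ I := by
  have := hI
  have : IsArtinianRing (A ⧸ I) := inferInstance
  obtain ⟨n, hn⟩ := IsArtinianRing.isNilpotent_jacobson_bot (R := A ⧸ I)
  refine ⟨n, ?_⟩
  have hle : (IsLocalRing.maximalIdeal A).map (Ideal.Quotient.mk I) ≤ Ideal.jacobson ⊥ := by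
    refine le_sInf ?_
    rintro P ⟨-, hP⟩
    have : (P.comap (Ideal.Quotient.mk I)).IsMaximal :=
      Ideal.comap_isMaximal_of_surjective _ Ideal.Quotient.mk_surjective
    exact Ideal.map_le_iff_le_comap.mpr (IsLocalRing.eq_maximalIdeal this).ge
  have h2 := Ideal.pow_right_mono hle n
  rw [hn, ← Ideal.map_pow, Ideal.map_le_iff_le_comap] at h2
  intro x hx
  exact Ideal.Quotient.eq_zero_iff_mem.mp (h2 hx)

variable {p : ℕ} {N : ℕ} [NeZero N] {S : Finset ℕ}
  {𝒪 : Type} [CommRing 𝒪] [IsDomain 𝒪] [IsDiscreteValuationRing 𝒪]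
  [IsAdicComplete (IsLocalRing.maximalIdeal 𝒪) 𝒪]
  {θ : CuspForm.heckeAlgebra N 2 (↑S : Set ℕ) →+* IsLocalRing.ResidueField 𝒪}
  {T : Type} [CommRing T] [IsLocalRing T] [IsNoetherianRing T]
  [IsAdicComplete (IsLocalRing.maximalIdeal T) T] [Algebra 𝒪 T] [IsLocalHom (algebraMap 𝒪 T)]
  [Module.Finite 𝒪 T] [Module.Free 𝒪 T]

/-- The Hecke ring of a Hecke-Galois datum has finite residue field. -/
theorem finite_residueField [Finite (IsLocalRing.ResidueField 𝒪)]
    (H : CuspForm.HeckeGaloisRepDatum N (↑S : Set ℕ) 𝒪 θ T) :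
    Finite (IsLocalRing.ResidueField T) :=
  Finite.of_surjective (IsLocalRing.ResidueField.map (algebraMap 𝒪 T)) fun x => by
    obtain ⟨a, rfl⟩ := H.residue_surjective x
    exact ⟨IsLocalRing.residue 𝒪 a, IsLocalRing.ResidueField.map_residue _ a⟩

/-- Flatness of a Hecke-Galois datum at `p`, given the modular input. -/
theorem isFlatAt_of_heckeModules (hdense : HeckeDatum.FrobeniusPowDense)
    [Finite (IsLocalRing.ResidueField 𝒪)]
    (hp : p.Prime) (hp𝒪 : (p : 𝒪) ∈ IsLocalRing.maximalIdeal 𝒪)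
    (hNS : ∀ q : ℕ, q.Prime → q ∣ N → q ∈ S)
    (H : CuspForm.HeckeGaloisRepDatum N (↑S : Set ℕ) 𝒪 θ T)
    (hM : HasFlatHeckeModules N (↑S : Set ℕ) p) :
    H.ρ.IsFlatAt p := by
  have hres := finite_residueField H
  refine isFlatAt_of_hasFlatModel hres fun I hI => ?_
  obtain ⟨n, hn⟩ := exists_maximalIdeal_pow_le I hI
  set J := IsLocalRing.maximalIdeal T ^ n with hJ
  have : Finite (T ⧸ IsLocalRing.maximalIdeal T) := hres
  have : Finite (T ⧸ J) := Ideal.finite_quotient_pow (IsNoetherian.noetherian _) n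
  have hpT : (p : T) ∈ IsLocalRing.maximalIdeal T := by
    rw [← map_natCast (algebraMap 𝒪 T) p]
    exact map_nonunit (algebraMap 𝒪 T) _ hp𝒪
  obtain ⟨L₁, hL₁, hcont⟩ := H.ρ.isAdicContinuous n
  obtain ⟨M, _, _, r, k, S₀, hpk, ⟨L₂, hL₂, hfac⟩, hflat, hES, hann⟩ := hM n
  obtain ⟨ζ, hζ⟩ : ∃ ζ : Qbar, IsPrimitiveRoot ζ (p ^ k) := by
    have : NeZero (p ^ k) := ⟨pow_ne_zero _ hp.ne_zero⟩
    exact HasEnoughRootsOfUnity.exists_primitiveRoot Qbar (p ^ k)
  have := hL₁
  have := hL₂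
  have : FiniteDimensional ℚ (IntermediateField.adjoin ℚ ({ζ} : Set Qbar)) :=
    IntermediateField.adjoin.finiteDimensional
      (IsPrimitiveRoot.isIntegral hζ (pow_pos hp.pos k) |>.tower_top)
  set L : IntermediateField ℚ Qbar :=
    L₁ ⊔ L₂ ⊔ IntermediateField.adjoin ℚ {ζ}
  have hLfin : FiniteDimensional ℚ L := inferInstance
  have hL1le : L₁ ≤ L := le_sup_of_le_left le_sup_left
  have hL2le : L₂ ≤ L := le_sup_of_le_left le_sup_right
  have hζL : ζ ∈ L :=
    le_sup_right (a := L₁ ⊔ L₂) (IntermediateField.mem_adjoin_simple_self ℚ ζ)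
  -- data attached to one group element
  have key : ∀ g : Gal, ∃ (c : CuspForm.heckeAlgebra N 2 (↑S : Set ℕ)) (d : ℕ),
      LinearMap.trace T H.ρ.V (H.ρ.ρ g) - H.π c ∈ J ∧
      g ζ = ζ ^ d ∧ d.Coprime p ∧ ∀ m : M, r g (r g m) - c • r g m + d • m = 0 := by
    intro g
    obtain ⟨ℓ, hℓ, hℓnot, A, hA, φ, hφ, a, ha⟩ := hdense L hLfin g (S₀ ∪ S ∪ {p})
    simp only [Finset.mem_union, Finset.mem_singleton, not_or] at hℓnot
    obtain ⟨⟨hℓS₀, hℓS⟩, hℓp⟩ := hℓnot
    have hℓN : ¬ ℓ ∣ N := fun hd => hℓS (hNS ℓ hℓ hd)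
    have hℓS' : ℓ ∉ (↑S : Set ℕ) := by simpa using hℓS
    set Tl : CuspForm.heckeAlgebra N 2 (↑S : Set ℕ) := CuspForm.heckeAlgebra.T hℓ hℓN hℓS'
    refine ⟨HeckeDatum.powTrace Tl (ℓ : CuspForm.heckeAlgebra N 2 (↑S : Set ℕ)) a, ℓ ^ a, ?_, ?_,
      ?_, ?_⟩
    · rw [HeckeDatum.map_powTrace, map_natCast,
        ← HeckeDatum.trace_pow_of_charpoly H.ρ.finrank_eq
          (H.charpoly_frob ℓ hℓ hℓN hℓS' A hA φ hφ) a,
        ← map_pow, ← map_sub]
      refine HeckeDatum.trace_mem_of_forall_mem_smul_top _ fun v => ?_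
      rw [LinearMap.sub_apply]
      exact HeckeDatum.apply_sub_apply_mem H.ρ hcont (fun x hx => ha x (hL1le hx)) v
    · rw [ha ζ hζL]
      exact HeckeDatum.frobenius_pow_apply_eq A hA
        (((Nat.coprime_primes hp hℓ).mpr (Ne.symm hℓp)).pow_left k) (pow_ne_zero _ hp.ne_zero)
        hφ a hζ.pow_eq_one
    · exact ((Nat.coprime_primes hℓ hp).mpr hℓp).pow_left a
    · have hx : (r φ) ^ 2 - Tl • r φ
          + (ℓ : CuspForm.heckeAlgebra N 2 (↑S : Set ℕ)) • (1 : Module.End _ M) = 0 := by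
        refine LinearMap.ext fun m => ?_
        rw [pow_two]
        simpa [Nat.cast_smul_eq_nsmul] using hES ℓ hℓ hℓN hℓS' hℓS₀ A hA φ hφ m
      have hrg : r g = (r φ) ^ a := by
        have h1 : r ((φ ^ a)⁻¹ * g) = 1 := hfac _ fun x hx => by
          rw [AlgEquiv.mul_apply, ha x (hL2le hx)]; exact AlgEquiv.symm_apply_apply (φ ^ a) x
        rw [← map_pow, ← mul_one (r (φ ^ a)), ← h1, ← map_mul, mul_inv_cancel_left]
      intro m
      have h2 := LinearMap.congr_fun (HeckeDatum.pow_quadratic_algebra hx a) m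
      rw [← hrg, pow_two] at h2
      simp only [LinearMap.add_apply, LinearMap.sub_apply, LinearMap.smul_apply,
        Module.End.mul_apply, Module.End.one_apply, LinearMap.zero_apply] at h2
      rw [← Nat.cast_smul_eq_nsmul (CuspForm.heckeAlgebra N 2 (↑S : Set ℕ)), Nat.cast_pow]
      exact h2
  choose c d hc hd hdp hrel using key
  have hmod : ∀ a b : ℕ, ζ ^ a = ζ ^ b → ∀ m : M, a • m = b • m := by
    intro a b hab m
    have h2 : a % p ^ k = b % p ^ k := by
      rw [hζ.eq_orderOf]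
      exact (hζ.isOfFinOrder (pow_ne_zero _ hp.ne_zero)).pow_eq_pow_iff_modEq.mp hab
    rw [← Nat.div_add_mod a (p ^ k), ← Nat.div_add_mod b (p ^ k), h2, add_smul, add_smul,
      mul_comm, mul_smul, hpk, smul_zero, mul_comm, mul_smul, hpk, smul_zero]
  have hmodel : HasFlatModel p (fun σ => H.ρ.levelAction J σ) := by
    refine hasFlatModel_quotient_of_quadratic (c := c)
      (d := fun g => (d g : CuspForm.heckeAlgebra N 2 (↑S : Set ℕ))) hflat ?_ ?_ ?_ H.π H.ρ.ρ
      (Module.finBasisOfFinrankEq T H.ρ.V H.ρ.finrank_eq)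
      (RepTheory.adic_span_eq_top H.ρ H.residual_absIrr) J ?_ hc _ fun σ v => rfl
    · intro g
      refine LinearMap.ext fun m => ?_
      have h1 : r g (r g⁻¹ m) = m := by
        rw [← Module.End.mul_apply, ← map_mul, mul_inv_cancel, map_one, Module.End.one_apply]
      have h2 := hrel g (r g⁻¹ m)
      rw [h1, sub_add_eq_add_sub, sub_eq_zero] at h2
      simp only [LinearMap.add_apply, LinearMap.smul_apply, Module.End.one_apply,
        Nat.cast_smul_eq_nsmul]
      exact h2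
    · intro g g' m
      simp only [Nat.cast_smul_eq_nsmul, smul_smul]
      refine hmod _ _ ?_ m
      rw [← hd, AlgEquiv.mul_apply, hd, map_pow, hd, ← pow_mul]
    · intro g m hm
      simp only [Nat.cast_smul_eq_nsmul] at hm
      have h1 := addOrderOf_dvd_of_nsmul_eq_zero hm
      have h2 := addOrderOf_dvd_of_nsmul_eq_zero (hpk m)
      have h3 : addOrderOf m ∣ Nat.gcd (d g) (p ^ k) := Nat.dvd_gcd h1 h2
      rw [((hdp g).pow_right k : Nat.gcd (d g) (p ^ k) = 1), Nat.dvd_one] at h3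
      exact AddMonoid.addOrderOf_eq_one_iff.mp h3
    · intro x hx
      obtain ⟨u, rfl⟩ := hann x hx
      rw [map_mul, map_pow, map_natCast]
      exact Ideal.mul_mem_right _ _ (Ideal.pow_mem_pow hpT n)
  refine hmodel.of_surjective
    (Submodule.factor (Submodule.smul_mono_left hn)).toAddMonoidHom
    (Submodule.factor_surjective (Submodule.smul_mono_left hn)) ?_
  intro σ x
  obtain ⟨v, rfl⟩ := Submodule.Quotient.mk_surjective _ x
  rfl

end Fermat.Agent.FlatModels
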