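import Fermat.Agent.FlatModels.Basic

/-!
# Passing between Hopf orders and Hopf algebras
-/

set_option autoImplicit false

noncomputable section

namespace Fermat.Agent.FlatModels

open scoped TensorProduct
open WithConv

variable {p : ℕ}

section OfHopf

variable {M : Type*} [AddCommGroup M] {act : Gal → M → M}

/-- A finite flat commutative Hopf algebra with points `M` gives a flat model of `M`. -/
theorem of_hopfAlgebra [Finite M] {H : Type*} [CommRing H] [HopfAlgebra (Rp p) H]
    [Module.Finite (Rp p) H]
    (e : WithConv (H →ₐ[Rp p] Qbar) ≃ M) (hadd : ∀ f g, e (f * g) = e f + e g)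
    (hact : ∀ (σ : Gal) (f g : WithConv (H →ₐ[Rp p] Qbar)),
      (∀ h : H, g h = σ (f h)) → e g = act σ (e f)) :
    HasFlatModel p act := by
  refine ⟨inferInstance, ?_⟩
  let Φ : H →ₐ[Rp p] (M → Qbar) := AlgHom.pi fun x => (e.symm x).ofConv
  have hΦ : ∀ (h : H) (x : M), Φ h x = (e.symm x) h := fun _ _ => rfl
  refine ⟨Φ.range, ?_, ?_, ?_, ?_⟩
  · exact Module.Finite.of_surjective Φ.rangeRestrict.toLinearMap Φ.rangeRestrict_surjective
  · rintro _ ⟨h, rfl⟩ σ x
    let g : WithConv (H →ₐ[Rp p] Qbar) :=
      toConv (((AlgEquiv.restrictScalars (Rp p) σ).toAlgHom).comp (e.symm x).ofConv)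
    have hg : ∀ a : H, g a = σ ((e.symm x) a) := fun _ => rfl
    have := hact σ (e.symm x) g hg
    rw [Equiv.apply_symm_apply] at this
    show (e.symm (act σ x)) h = σ ((e.symm x) h)
    rw [← this, Equiv.symm_apply_apply, hg]
  · intro x y hxy
    refine e.symm.injective ?_
    apply WithConv.ext
    exact AlgHom.ext fun h => hxy _ ⟨h, rfl⟩
  · rintro _ ⟨h, rfl⟩
    refine ⟨Algebra.TensorProduct.map Φ.rangeRestrict Φ.rangeRestrict (Coalgebra.comul h), ?_⟩
    funext z
    have h1 : e.symm (z.1 + z.2) = e.symm z.1 * e.symm z.2 :=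
      e.injective (by rw [hadd, Equiv.apply_symm_apply, Equiv.apply_symm_apply,
        Equiv.apply_symm_apply])
    show mulMap Φ.range.val Φ.range.val _ z = (e.symm (z.1 + z.2)) h
    rw [h1, AlgHom.convMul_apply]
    induction Coalgebra.comul (R := Rp p) h using TensorProduct.induction_on with
    | zero => simp
    | tmul a b => simp [hΦ]
    | add u v hu hv => simp only [map_add, Pi.add_apply, hu, hv]

end OfHopf

section ToHopf

variable {M : Type*} [AddCommGroup M] [Finite M] {act : Gal → M → M}
  {O : Subalgebra (Rp p) (M → Qbar)} (hO : IsHopfOrder act O)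

/-- Pullback of functions. -/
def pullback {X Y : Type*} (f : X → Y) : (Y → Qbar) →ₐ[Rp p] (X → Qbar) :=
  AlgHom.pi fun x => Pi.evalAlgHom (Rp p) (fun _ => Qbar) (f x)

/-- The value of a pullback. -/
@[simp]
theorem pullback_apply {X Y : Type*} (f : X → Y) (h : Y → Qbar) (x : X) :
    (pullback (p := p) f) h x = h (f x) := rfl

include hO in
/-- `O ⊗ O` embeds into the functions on `M × M`. -/
theorem IsHopfOrder.mulMap_injective :
    Function.Injective (mulMap O.val O.val : O ⊗[Rp p] O →ₐ[Rp p] (M × M → Qbar)) := by
  have := hO.free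
  exact FlatModels.mulMap_injective hO.act_surjective hO.act_surjective
    (fun a => hO.equivariant _ a.2) (fun a => hO.equivariant _ a.2)
    Subtype.val_injective Subtype.val_injective

include hO in
theorem IsHopfOrder.mulMap₃_injective :
    Function.Injective (mulMap O.val (mulMap O.val O.val) :
      O ⊗[Rp p] (O ⊗[Rp p] O) →ₐ[Rp p] (M × (M × M) → Qbar)) := by
  have := hO.free
  exact FlatModels.mulMap_injective (actY := fun σ => Prod.map (act σ) (act σ))
    hO.act_surjective (fun σ => (hO.act_surjective σ).prodMap (hO.act_surjective σ))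
    (fun a => hO.equivariant _ a.2)
    (fun t => isEquivariant_mulMap (fun a => hO.equivariant _ a.2)
      (fun a => hO.equivariant _ a.2) t)
    Subtype.val_injective hO.mulMap_injective

/-- The comultiplication of an order. -/
def IsHopfOrder.comulHom : O →ₐ[Rp p] O ⊗[Rp p] O :=
  ((AlgEquiv.ofInjective (mulMap O.val O.val) hO.mulMap_injective).symm.toAlgHom).comp
    (((pullback fun z : M × M => z.1 + z.2).comp O.val).codRestrict _ fun a => hO.comul _ a.2)

theorem IsHopfOrder.mulMap_comulHom (a : O) (z : M × M) :
    mulMap O.val O.val (hO.comulHom a) z = (a : M → Qbar) (z.1 + z.2) := by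
  set b := ((pullback fun z : M × M => z.1 + z.2).comp O.val).codRestrict
    (mulMap O.val O.val).range (fun a => hO.comul _ a.2) a with hb
  have : ((AlgEquiv.ofInjective (mulMap O.val O.val) hO.mulMap_injective)
      ((AlgEquiv.ofInjective (mulMap O.val O.val) hO.mulMap_injective).symm b) : M × M → Qbar)
      = b := by rw [AlgEquiv.apply_symm_apply]
  exact congrFun this z

/-- Evaluation at zero, as a map to `ℤ₍ₚ₎`. -/
def IsHopfOrder.counitHom : O →ₐ[Rp p] Rp p :=
  (AlgEquiv.ofInjective (Algebra.ofId (Rp p) Qbar) algebraMap_qbar_injective).symm.toAlgHom.comp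
    (((Pi.evalAlgHom (Rp p) (fun _ => Qbar) (0 : M)).comp O.val).codRestrict _
      fun a => hO.exists_eq_apply_zero a.2)

omit [Finite M] in
/-- The counit is evaluation at `0`. -/
theorem IsHopfOrder.algebraMap_counitHom (a : O) :
    algebraMap (Rp p) Qbar (hO.counitHom a) = (a : M → Qbar) 0 := by
  set b := ((Pi.evalAlgHom (Rp p) (fun _ => Qbar) (0 : M)).comp O.val).codRestrict
    (Algebra.ofId (Rp p) Qbar).range (fun a => hO.exists_eq_apply_zero a.2) a
  have : ((AlgEquiv.ofInjective (Algebra.ofId (Rp p) Qbar) algebraMap_qbar_injective)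
      ((AlgEquiv.ofInjective (Algebra.ofId (Rp p) Qbar) algebraMap_qbar_injective).symm b) : Qbar)
      = b := by rw [AlgEquiv.apply_symm_apply]
  exact this

/-- The antipode of an order. -/
def IsHopfOrder.antipodeHom : O →ₐ[Rp p] O :=
  ((pullback (Neg.neg : M → M)).comp O.val).codRestrict O fun a => hO.comp_neg_mem a.2

theorem IsHopfOrder.antipodeHom_apply (a : O) (x : M) :
    (hO.antipodeHom a : M → Qbar) x = (a : M → Qbar) (-x) := rfl

/-- The bialgebra of an order. -/
@[implicit_reducible]
def IsHopfOrder.bialgebra : Bialgebra (Rp p) O :=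
  Bialgebra.ofAlgHom hO.comulHom hO.counitHom
    (by
      refine AlgHom.ext fun a => hO.mulMap₃_injective (funext fun z => ?_)
      simp only [AlgHom.comp_apply]
      have hR : ∀ t : O ⊗[Rp p] O, mulMap O.val (mulMap O.val O.val)
          (Algebra.TensorProduct.map (AlgHom.id (Rp p) O) hO.comulHom t) z
            = mulMap O.val O.val t (z.1, z.2.1 + z.2.2) := by
        intro t
        induction t using TensorProduct.induction_on with
        | zero => simp
        | tmul u v => simp [hO.mulMap_comulHom]
        | add u v hu hv => simp only [map_add, Pi.add_apply, hu, hv]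
      have hA : ∀ (t : O ⊗[Rp p] O) (c : O), mulMap O.val (mulMap O.val O.val)
          (Algebra.TensorProduct.assoc (Rp p) (Rp p) (Rp p) O O O (t ⊗ₜ c)) z
            = mulMap O.val O.val t (z.1, z.2.1) * (c : M → Qbar) z.2.2 := by
        intro t c
        induction t using TensorProduct.induction_on with
        | zero => simp
        | tmul u v => simp [mul_assoc]
        | add u v hu hv => simp only [TensorProduct.add_tmul, map_add, Pi.add_apply, hu, hv, add_mul]
      have hL : ∀ t : O ⊗[Rp p] O, mulMap O.val (mulMap O.val O.val)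
          (Algebra.TensorProduct.assoc (Rp p) (Rp p) (Rp p) O O O
            (Algebra.TensorProduct.map hO.comulHom (AlgHom.id (Rp p) O) t)) z
            = mulMap O.val O.val t (z.1 + z.2.1, z.2.2) := by
        intro t
        induction t using TensorProduct.induction_on with
        | zero => simp
        | tmul u v => simp [hA, hO.mulMap_comulHom]
        | add u v hu hv => simp only [map_add, Pi.add_apply, hu, hv]
      refine (hL _).trans ((hR _).trans ?_).symm
      rw [hO.mulMap_comulHom, hO.mulMap_comulHom, add_assoc])
    (by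
      refine AlgHom.ext fun a => (Algebra.TensorProduct.lid (Rp p) O).injective ?_
      simp only [AlgHom.comp_apply, AlgEquiv.coe_toAlgHom, AlgEquiv.apply_symm_apply]
      refine Subtype.ext (funext fun x => ?_)
      have : ∀ t : O ⊗[Rp p] O,
          (Algebra.TensorProduct.lid (Rp p) O
            (Algebra.TensorProduct.map hO.counitHom (AlgHom.id (Rp p) O) t) : M → Qbar) x
            = mulMap O.val O.val t (0, x) := by
        intro t
        induction t using TensorProduct.induction_on with
        | zero => simp
        | tmul u v => simp [Algebra.smul_def, hO.algebraMap_counitHom]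
        | add u v hu hv => simp only [map_add, Pi.add_apply, Subalgebra.coe_add, hu, hv]
      rw [this, hO.mulMap_comulHom, zero_add])
    (by
      refine AlgHom.ext fun a => (Algebra.TensorProduct.rid (Rp p) (Rp p) O).injective ?_
      simp only [AlgHom.comp_apply, AlgEquiv.coe_toAlgHom, AlgEquiv.apply_symm_apply]
      refine Subtype.ext (funext fun x => ?_)
      have : ∀ t : O ⊗[Rp p] O,
          (Algebra.TensorProduct.rid (Rp p) (Rp p) O
            (Algebra.TensorProduct.map (AlgHom.id (Rp p) O) hO.counitHom t) : M → Qbar) x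
            = mulMap O.val O.val t (x, 0) := by
        intro t
        induction t using TensorProduct.induction_on with
        | zero => simp
        | tmul u v => simp [Algebra.smul_def, hO.algebraMap_counitHom, mul_comm]
        | add u v hu hv => simp only [map_add, Pi.add_apply, Subalgebra.coe_add, hu, hv]
      rw [this, hO.mulMap_comulHom, add_zero])

/-- The Hopf algebra of an order. -/
@[implicit_reducible]
def IsHopfOrder.hopfAlgebra : HopfAlgebra (Rp p) O :=
  letI := hO.bialgebra
  HopfAlgebra.ofAlgHom hO.antipodeHom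
    (by
      refine AlgHom.ext fun a => Subtype.ext (funext fun x => ?_)
      simp only [AlgHom.comp_apply]
      show _ = algebraMap (Rp p) Qbar (hO.counitHom a)
      rw [hO.algebraMap_counitHom]
      have : ∀ t : O ⊗[Rp p] O, (Algebra.TensorProduct.lift hO.antipodeHom (AlgHom.id (Rp p) O)
          (fun _ _ => Commute.all _ _) t : M → Qbar) x = mulMap O.val O.val t (-x, x) := by
        intro t
        induction t using TensorProduct.induction_on with
        | zero => simp
        | tmul u v => simp [hO.antipodeHom_apply]
        | add u v hu hv => simp only [map_add, Pi.add_apply, Subalgebra.coe_add, hu, hv]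
      refine (this _).trans ((hO.mulMap_comulHom a (-x, x)).trans ?_)
      rw [neg_add_cancel])
    (by
      refine AlgHom.ext fun a => Subtype.ext (funext fun x => ?_)
      simp only [AlgHom.comp_apply]
      show _ = algebraMap (Rp p) Qbar (hO.counitHom a)
      rw [hO.algebraMap_counitHom]
      have : ∀ t : O ⊗[Rp p] O, (Algebra.TensorProduct.lift (AlgHom.id (Rp p) O) hO.antipodeHom
          (fun _ _ => Commute.all _ _) t : M → Qbar) x = mulMap O.val O.val t (x, -x) := by
        intro t
        induction t using TensorProduct.induction_on with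
        | zero => simp
        | tmul u v => simp [hO.antipodeHom_apply]
        | add u v hu hv => simp only [map_add, Pi.add_apply, Subalgebra.coe_add, hu, hv]
      refine (this _).trans ((hO.mulMap_comulHom a (x, -x)).trans ?_)
      rw [add_neg_cancel])

/-- The points of an order, as convolution algebra maps. -/
def IsHopfOrder.evalPoint (x : M) : WithConv (O →ₐ[Rp p] Qbar) :=
  toConv ((Pi.evalAlgHom (Rp p) (fun _ => Qbar) x).comp O.val)

include hO in
theorem IsHopfOrder.evalPoint_bijective :
    Function.Bijective (IsHopfOrder.evalPoint (O := O)) := by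
  refine ⟨fun x y hxy => hO.separates x y fun h hh => ?_, fun φ => ?_⟩
  · exact congrArg (fun f : WithConv (O →ₐ[Rp p] Qbar) => f ⟨h, hh⟩) hxy
  · obtain ⟨x, hx⟩ := hO.exists_eq_eval φ.ofConv
    exact ⟨x, by apply WithConv.ext; exact AlgHom.ext fun a => (hx a).symm⟩

end ToHopf

/-- A module with a flat model is the module of points of a finite flat cocommutative Hopf algebra
over `ℤ₍ₚ₎`. -/
theorem HasFlatModel.exists_hopfAlgebra {M : Type} [AddCommGroup M] {act : Gal → M → M}
    (h : HasFlatModel p act) :
    ∃ (H : Type) (_ : CommRing H) (_ : HopfAlgebra (Rp p) H),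
      Module.Finite (Rp p) H ∧ Module.Flat (Rp p) H ∧ Coalgebra.IsCocomm (Rp p) H ∧
      ∃ e : WithConv (H →ₐ[Rp p] Qbar) ≃ M,
        (∀ f g : WithConv (H →ₐ[Rp p] Qbar), e (f * g) = e f + e g) ∧
        ∀ (σ : Gal) (f g : WithConv (H →ₐ[Rp p] Qbar)),
          (∀ a : H, g a = σ (f a)) → e g = act σ (e f) := by
  obtain ⟨hfin, O, hO⟩ := h
  have := hO.free
  let := hO.hopfAlgebra
  refine ⟨O, inferInstance, hO.hopfAlgebra, hO.finite, inferInstance, ⟨?_⟩,
    (Equiv.ofBijective _ hO.evalPoint_bijective).symm, ?_, ?_⟩
  · refine LinearMap.ext fun a => hO.mulMap_injective (funext fun z => ?_)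
    have : ∀ t : O ⊗[Rp p] O, mulMap O.val O.val (TensorProduct.comm (Rp p) O O t) z
        = mulMap O.val O.val t (z.2, z.1) := by
      intro t
      induction t using TensorProduct.induction_on with
      | zero => simp
      | tmul u v => simp [mul_comm]
      | add u v hu hv => simp only [map_add, Pi.add_apply, hu, hv]
    show mulMap O.val O.val (TensorProduct.comm (Rp p) O O (hO.comulHom a)) z
      = mulMap O.val O.val (hO.comulHom a) z
    rw [this, hO.mulMap_comulHom, hO.mulMap_comulHom, add_comm]
  · intro f g
    obtain ⟨x, rfl⟩ := hO.evalPoint_bijective.2 f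
    obtain ⟨y, rfl⟩ := hO.evalPoint_bijective.2 g
    rw [Equiv.ofBijective_symm_apply_apply, Equiv.ofBijective_symm_apply_apply,
      Equiv.symm_apply_eq, Equiv.ofBijective_apply]
    apply WithConv.ext
    refine AlgHom.ext fun a => ?_
    show ((IsHopfOrder.evalPoint (O := O) x * IsHopfOrder.evalPoint y :
      WithConv (O →ₐ[Rp p] Qbar))) a = (a : M → Qbar) (x + y)
    rw [AlgHom.convMul_apply, ← hO.mulMap_comulHom a (x, y)]
    show _ = mulMap O.val O.val (Coalgebra.comul (R := Rp p) a) (x, y)
    induction Coalgebra.comul (R := Rp p) a using TensorProduct.induction_on with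
    | zero => simp
    | tmul u v => simp [IsHopfOrder.evalPoint]
    | add u v hu hv => simp only [map_add, Pi.add_apply, hu, hv]
  · intro σ f g hfg
    obtain ⟨x, rfl⟩ := hO.evalPoint_bijective.2 f
    obtain ⟨y, rfl⟩ := hO.evalPoint_bijective.2 g
    rw [Equiv.ofBijective_symm_apply_apply, Equiv.ofBijective_symm_apply_apply]
    exact hO.separates _ _ fun h hh => (hfg ⟨h, hh⟩).trans (hO.equivariant h hh σ x).symm

end Fermat.Agent.FlatModels
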