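import Fermat.Agent.FlatModels.HeckeFlat
import Fermat.Agent.HeckeDatum.JacobianInput
import Fermat.Prelude.Def_GaloisRep_Flat

/-!
# The Jacobian as a supplier of flat Hecke modules

From the finite flat models of the torsion of `J₀(N)` at `p`, the good-reduction specializations
and the comparison of Hecke actions, `J₀(N)[p ^ k]` supplies `HasFlatHeckeModules`.
-/

set_option autoImplicit false

noncomputable section

namespace Fermat.Agent.FlatModels

open ModularCurve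

/-- The torsion of `J₀(N)` has finite flat models over `ℤ₍ₚ₎`. -/
def JacobianHasFlatModels (N p : ℕ) : Prop :=
  ∀ k : ℕ, ∃ (H : Type) (_ : CommRing H) (_ : HopfAlgebra (GaloisRep.ratLocalizedAt p) H),
    Module.Finite (GaloisRep.ratLocalizedAt p) H ∧ Module.Flat (GaloisRep.ratLocalizedAt p) H ∧
    Coalgebra.IsCocomm (GaloisRep.ratLocalizedAt p) H ∧
    ∃ e : WithConv (H →ₐ[GaloisRep.ratLocalizedAt p] AlgebraicClosure ℚ) ≃
        ↥(Submodule.torsionBy ℤ (JZero N) ((p : ℤ) ^ k)),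
      (∀ f g, e (f * g) = e f + e g) ∧
      ∀ (σ : AlgebraicClosure ℚ ≃ₐ[ℚ] AlgebraicClosure ℚ)
        (f g : WithConv (H →ₐ[GaloisRep.ratLocalizedAt p] AlgebraicClosure ℚ)),
        (∀ h : H, g h = σ (f h)) → ((e g : JZero N)) = σ • (e f : JZero N)

variable {N : ℕ} [NeZero N] {S : Set ℕ} {p : ℕ}

variable {S : Finset ℕ} {𝒪 : Type} [CommRing 𝒪] [IsDomain 𝒪] [IsDiscreteValuationRing 𝒪]
  [IsAdicComplete (IsLocalRing.maximalIdeal 𝒪) 𝒪]
  {θ : CuspForm.heckeAlgebra N 2 (↑S : Set ℕ) →+* IsLocalRing.ResidueField 𝒪}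
  {T : Type} [CommRing T] [IsLocalRing T] [IsNoetherianRing T]
  [IsAdicComplete (IsLocalRing.maximalIdeal T) T] [Algebra 𝒪 T] [IsLocalHom (algebraMap 𝒪 T)]
  [Module.Finite 𝒪 T] [Module.Free 𝒪 T]

end Fermat.Agent.FlatModels
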